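import Fermat.Agent.ECP.StableLine
import Fermat.Agent.RTE.Curve
import Fermat.Agent.RTM.NonEis

set_option autoImplicit false

/-!
# Reducible residual representations of semistable curves
-/

namespace Fermat.Agent.Sw3

open WeierstrassCurve WeierstrassCurve.Affine WeierstrassCurve.Affine.Point
open Fermat.Agent.FrobE Fermat.Agent.ERep Fermat.Agent.Tate
open Fermat.Agent.EC (IsInt InE1 xX xZ xX_some xZ_some xX_zero xZ_zero NS TrivMod)

local notation "Qb" => AlgebraicClosure ℚ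
local notation "GQ" => AlgebraicClosure ℚ ≃ₐ[ℚ] AlgebraicClosure ℚ

section Local

variable (W : WeierstrassCurve ℤ) {p : ℕ}

/-- Local structure of a semistable model at every place. -/
theorem local_ss (hΔ : W.Δ ≠ 0) (hp : Odd p) {q : ℕ} (hq : q.Prime)
    (hss : (q : ℤ) ∣ W.Δ → ¬ (q : ℤ) ∣ W.c₄) {A : ValuationSubring Qb}
    (hA : A.LiesOverPrime q) :
    ∃ E0 : AddSubgroup ((W.map (Int.castRingHom ℚ))⁄Qb).Point,
      ECP.E1 A.valuation (isInt_model (A := A) (L := Qb) W) ≤ E0 ∧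
      ∀ σ ∈ A.inertiaSubgroupIn ℚ,
        (∀ Q ∈ E0, σ • Q - Q ∈ ECP.E1 A.valuation (isInt_model (A := A) (L := Qb) W)) ∧
        (∀ x : Submodule.torsionBy ℤ ((W.map (Int.castRingHom ℚ))⁄Qb).Point (p : ℤ),
          σ • (x : ((W.map (Int.castRingHom ℚ))⁄Qb).Point) - x ∈ E0) := by
  classical
  have hvq : A.valuation ((q : ℕ) : Qb) < 1 := A.mem_nonunits_iff.mp hA
  have hInt := isInt_model (A := A) (L := Qb) W
  by_cases hqΔ : (q : ℤ) ∣ W.Δ
  · have : Fact q.Prime := ⟨hq⟩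
    have hc := hss hqΔ
    have hΔv : A.valuation ((W.map (Int.castRingHom ℚ))⁄Qb).Δ < 1 := by
      rw [Δ_model]; exact val_int_lt_one (q := q) hvq (by exact_mod_cast hqΔ)
    have hΔK : ((W.map (Int.castRingHom ℚ))⁄Qb).Δ ≠ 0 := by
      rw [Δ_model]; exact_mod_cast hΔ
    have hcv : A.valuation ((W.map (Int.castRingHom ℚ))⁄Qb).c₄ = 1 := by
      rw [c₄_model]; exact val_int_eq_one hq hvq (by exact_mod_cast hc)
    obtain ⟨x₀, y₀, α, β, h⟩ := exists_crit (v := A.valuation) hInt hΔv hcv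
    have i2 : CharP (IsLocalRing.ResidueField A) q := charP_residue hq hA
    let _ : Algebra (ZMod q) (IsLocalRing.ResidueField A) := ZMod.algebra _ q
    have hred := isRed_int (l := q) (A := A) (L := Qb) W
    have hπ : ∀ a : A, IsLocalRing.residue A a = 0 ↔ A.valuation (a : Qb) < 1 :=
      valuation_lt_one_iff_residue
    refine ⟨RTE.E0 hπ hred, ?_, fun σ hσ => ?_⟩
    · intro P hP
      rw [ECP.mem_E1_iff] at hP
      rcases P with _ | ⟨x, y, np⟩
      · exact zero_mem _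
      · intro hx hy
        exfalso
        rw [ECP.inE1_iff (by rintro ⟨⟩)] at hP
        exact absurd ((A.valuation_le_one_iff _).mpr hx) (not_le.mpr hP)
    · have hTM := EC.trivMod_of_mem_inertia A hσ
      have hfix := h.fixed (R := ℚ) (S := ℚ) hTM
      have hin : ∀ x, A.valuation (σ x) = A.valuation x := ECP.valuation_smul_eq A hσ
      refine ⟨fun Q hQ => ?_, fun x => ?_⟩
      · rw [ECP.mem_E1_iff]
        refine EC.smul_sub_inE1 hInt hTM Q ?_
        intro hle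
        rcases Q with _ | ⟨x, y, np⟩
        · exfalso
          change A.valuation 1 ≤ A.valuation 0 at hle
          rw [_root_.map_one, _root_.map_zero] at hle
          exact absurd hle (not_le.mpr zero_lt_one)
        · have hx : x ∈ A := by
            change A.valuation x ≤ A.valuation 1 at hle
            rw [_root_.map_one] at hle
            exact (A.valuation_le_one_iff _).mp hle
          exact RTE.ns_of_red hπ hred np hx (hred.y_mem np.1 hx) (hQ hx _)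
      · have hcd := RTE.crit_decomp' h hin
        exact RTE.smul_sub_mem_E0 hπ hred h hin hcd.1 hcd.2.1 hfix.2.2.1 hfix.2.2.2 hp
          (ECP.nsmul_coe_eq_zero x)
  · refine ⟨⊤, le_top, fun σ hσ => ⟨fun Q _ => ?_, fun x => AddSubgroup.mem_top _⟩⟩
    have hTM : TrivMod A.valuation σ := EC.trivMod_of_mem_inertia A hσ
    have hΔ1 : A.valuation ((W.map (Int.castRingHom ℚ))⁄Qb).Δ = 1 := by
      rw [Δ_model]; exact val_int_eq_one hq hvq (by exact_mod_cast hqΔ)
    refine EC.smul_sub_inE1 hInt hTM Q (fun h => ?_)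
    rcases Q with _ | ⟨x, y, h'⟩
    · simp [← zero_def] at h
    · exact hInt.ns_of_Δ hΔ1 (by simpa using h)

/-- a stable line is either pointwise fixed or has trivial quotient. -/
theorem line_dichotomy (hΔ : W.Δ ≠ 0) (hW : W.IsSemistableModel) [hp : Fact p.Prime]
    (hp2 : p ≠ 2) {N : Submodule (ZMod p)
      (Submodule.torsionBy ℤ ((W.map (Int.castRingHom ℚ))⁄Qb).Point (p : ℤ))}
    [Finite (Submodule.torsionBy ℤ ((W.map (Int.castRingHom ℚ))⁄Qb).Point (p : ℤ))]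
    (hcard : Nat.card (Submodule.torsionBy ℤ ((W.map (Int.castRingHom ℚ))⁄Qb).Point (p : ℤ))
      ≤ p ^ 2)
    (hbot : N ≠ ⊥) (htop : N ≠ ⊤) (hN : IsGaloisStable ℚ N) :
    (∀ σ : GQ, ∀ x ∈ N, σ • x = x) ∨ (∀ σ : GQ, ∀ x, σ • x - x ∈ N) := by
  have hodd : Odd p := hp.out.odd_of_ne_two hp2
  -- inertia away from `p` acts trivially on `N` and the quotient
  have h2 : ∀ ℓ : ℕ, ℓ.Prime → ℓ ≠ p → ∀ A : ValuationSubring Qb, A.LiesOverPrime ℓ →
      ∀ σ ∈ A.inertiaSubgroupIn ℚ, (∀ x ∈ N, σ • x = x) ∧ (∀ x, σ • x - x ∈ N) := by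
    intro ℓ hℓ hℓp A hA σ hσ
    obtain ⟨E0, h1, h⟩ := local_ss W hΔ hodd hℓ (hW ℓ hℓ) hA
    obtain ⟨h2, h3⟩ := h σ hσ
    refine ECP.trivial_on_both hcard hbot htop hN σ E0 _ h2 h3 ?_
    intro x hx
    have hvp : A.valuation ((p : ℕ) : Qb) = 1 := by
      refine ECP.val_nat_eq_one_of_not_dvd (v := A.valuation) hℓ
        (A.mem_nonunits_iff.mp hA) ?_
      intro hd
      exact hℓp ((Nat.prime_dvd_prime_iff_eq hℓ hp.out).mp hd)
    have := (isInt_model (A := A) (L := Qb) W).eq_zero_of_inE1 ((ECP.mem_E1_iff _).mp hx) hvp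
      (ECP.nsmul_coe_eq_zero x)
    exact Subtype.ext this
  obtain ⟨r, hr⟩ := ECP.lineC_rational hN
  by_cases hd : p ∣ r.den
  · -- `E₁[p] = N`
    right
    have htopH : ECP.H2 (S := ℚ) N = ⊤ := by
      refine ECP.eq_top_of_inertia_le_tors _ (ECP.H2_normal hN) (ECP.torsField_le_H2 N) ?_
      intro ℓ hℓ A hA σ hσ
      rw [ECP.mem_H2_iff]
      by_cases hℓp : ℓ = p
      · subst hℓp
        have hvp : A.valuation ((ℓ : ℕ) : Qb) < 1 := A.mem_nonunits_iff.mp hA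
        obtain ⟨E0, h1, h⟩ := local_ss W hΔ hodd hℓ (hW ℓ hℓ) hA
        obtain ⟨h2, h3⟩ := h σ hσ
        refine ECP.trivial_on_quot hcard hbot htop σ E0 _ h1 h2 h3 ?_
        refine ECP.mem_E1_iff_mem_line hp2 hvp _ hcard hbot htop hN ?_
        rw [← hr, ← not_le, ECP.val_rat_le_one_iff hℓ hvp r]
        exact fun h => h hd
      · exact (h2 ℓ hℓ hℓp A hA σ hσ).2
    intro σ x
    have : σ ∈ ECP.H2 (S := ℚ) N := by rw [htopH]; exact Subgroup.mem_top _
    exact this x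
  · left
    have htopH : ECP.H1 (S := ℚ) N = ⊤ := by
      refine ECP.eq_top_of_inertia_le_tors _ (ECP.H1_normal hN) (ECP.torsField_le_H1 N) ?_
      intro ℓ hℓ A hA σ hσ
      rw [ECP.mem_H1_iff]
      by_cases hℓp : ℓ = p
      · subst hℓp
        have hvp : A.valuation ((ℓ : ℕ) : Qb) < 1 := A.mem_nonunits_iff.mp hA
        obtain ⟨E0, h1, h⟩ := local_ss W hΔ hodd hℓ (hW ℓ hℓ) hA
        obtain ⟨h2, h3⟩ := h σ hσ
        refine ECP.trivial_on_line hcard hbot htop hN σ E0 _ h2 h3 ?_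
        refine ECP.eq_zero_of_mem_E1 _ hcard hbot htop ?_
        rw [← hr, ECP.val_rat_le_one_iff hℓ hvp r]
        exact hd
      · exact (h2 ℓ hℓ hℓp A hA σ hσ).1
    intro σ x hx
    have : σ ∈ ECP.H1 (S := ℚ) N := by rw [htopH]; exact Subgroup.mem_top _
    exact this x hx

end Local

section Red

variable (W : WeierstrassCurve ℤ) {p : ℕ}

theorem isElliptic_WQ {W : WeierstrassCurve ℤ} (hΔ : W.Δ ≠ 0) :
    (W.map (Int.castRingHom ℚ)).IsElliptic := by
  constructor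
  have h1 : (W.map (Int.castRingHom ℚ)).Δ = ((W.Δ : ℤ) : ℚ) := by
    rw [WeierstrassCurve.map_Δ]; rfl
  rw [h1, isUnit_iff_ne_zero]
  exact_mod_cast hΔ

theorem tors_card (hΔ : W.Δ ≠ 0) (hp : p.Prime) :
    Finite (Submodule.torsionBy ℤ ((W.map (Int.castRingHom ℚ))⁄Qb).Point (p : ℤ)) ∧
    Nat.card (Submodule.torsionBy ℤ ((W.map (Int.castRingHom ℚ))⁄Qb).Point (p : ℤ)) = p ^ 2 := by
  have := isElliptic_WQ hΔ
  have e : {Q : ((W.map (Int.castRingHom ℚ))⁄Qb).Point | p • Q = 0} =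
      (Submodule.torsionBy ℤ ((W.map (Int.castRingHom ℚ))⁄Qb).Point (p : ℤ) :
        Set ((W.map (Int.castRingHom ℚ))⁄Qb).Point) := by
    ext Q
    rw [SetLike.mem_coe, Submodule.mem_torsionBy_iff]
    change p • Q = 0 ↔ _
    rw [natCast_zsmul]
  have hc : Nat.card (Submodule.torsionBy ℤ ((W.map (Int.castRingHom ℚ))⁄Qb).Point (p : ℤ))
      = p ^ 2 := by
    have h1 := card_torsionE (W.map (Int.castRingHom ℚ)) hp.pos
    rw [← h1]
    exact congrArg Set.ncard e.symm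
  refine ⟨?_, hc⟩
  refine Nat.finite_of_card_ne_zero ?_
  rw [hc]
  exact pow_ne_zero _ hp.ne_zero

/-- **reducible** implies Eisenstein, for semistable curves -/
theorem red_congr (hΔ : W.Δ ≠ 0) (hW : W.IsSemistableModel) (hp : p.Prime) (hp2 : p ≠ 2)
    (hred : ¬ W.ModRepIsIrreducible p) {l : ℕ} (hl : l.Prime) (hlp : l ≠ p)
    (hg : W.IsGoodPrimeFor l) : (p : ℤ) ∣ W.apOfModel l - l - 1 := by
  have hpf : Fact p.Prime := ⟨hp⟩
  obtain ⟨hfin, hcard⟩ := tors_card W hΔ hp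
  have hnt : Nontrivial (Submodule.torsionBy ℤ ((W.map (Int.castRingHom ℚ))⁄Qb).Point (p : ℤ)) := by
    rw [← Finite.one_lt_card_iff_nontrivial, hcard]
    exact Nat.one_lt_pow two_ne_zero hp.one_lt
  unfold ModRepIsIrreducible GaloisRepIsIrreducible at hred
  rw [not_and] at hred
  have h1 := hred hnt
  push Not at h1
  obtain ⟨N, hN, hbot, htop⟩ := h1
  obtain ⟨A, hA⟩ := Frob.exists_liesOverPrime Qb hl
  obtain ⟨σ, hσ⟩ := Frob.exists_isFrobeniusAt hl hA
  -- a nonzero point fixed by Frobenius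
  obtain ⟨x, hx0, hx⟩ : ∃ x : Submodule.torsionBy ℤ ((W.map (Int.castRingHom ℚ))⁄Qb).Point (p : ℤ),
      x ≠ 0 ∧ σ • x = x := by
    rcases line_dichotomy W hΔ hW hp2 hcard.le hbot htop hN with h | h
    · obtain ⟨x, hxN, hx0⟩ := (Submodule.ne_bot_iff _).mp hbot
      exact ⟨x, hx0, h σ x hxN⟩
    · let f : Submodule.torsionBy ℤ ((W.map (Int.castRingHom ℚ))⁄Qb).Point (p : ℤ) → N :=
        fun x => ⟨σ • x - x, h σ x⟩
      have hf : ¬ Function.Injective f := by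
        intro hinj
        apply htop
        have hN0 : Finite N := inferInstance
        have h1 := Nat.card_le_card_of_injective f hinj
        have hsurj : Function.Bijective (Subtype.val : N → _) := by
          rw [Nat.bijective_iff_injective_and_card]
          exact ⟨Subtype.val_injective,
            le_antisymm (Nat.card_le_card_of_injective _ Subtype.val_injective) h1⟩
        rw [eq_top_iff]
        intro x _
        obtain ⟨y, rfl⟩ := hsurj.2 x
        exact y.2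
      unfold Function.Injective at hf
      push Not at hf
      obtain ⟨x, y, hxy, hne⟩ := hf
      refine ⟨x - y, sub_ne_zero.mpr hne, ?_⟩
      have h3 : σ • x - x = σ • y - y := congrArg Subtype.val hxy
      rw [smul_sub]
      rw [sub_eq_sub_iff_add_eq_add] at h3 ⊢
      rw [add_comm x, ← h3, add_comm]
  have hfrob := frob_char_model (L := Qb) W hl hg hA hσ (hp.odd_of_ne_two hp2)
    (fun h => hlp ((Nat.prime_dvd_prime_iff_eq hl hp).mp h)) (x : _) (ECP.nsmul_coe_eq_zero x)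
  have hx' : σ • (x : ((W.map (Int.castRingHom ℚ))⁄Qb).Point) = x := congrArg Subtype.val hx
  rw [hx', hx'] at hfrob
  have h2 : (1 - W.apOfModel l + (l : ℤ)) • (x : ((W.map (Int.castRingHom ℚ))⁄Qb).Point) = 0 := by
    rw [add_zsmul, sub_zsmul, one_zsmul]
    exact hfrob
  have h3 : addOrderOf (x : ((W.map (Int.castRingHom ℚ))⁄Qb).Point) = p :=
    addOrderOf_eq_prime (ECP.nsmul_coe_eq_zero x) (fun h => hx0 (Subtype.ext h))
  have h4 := addOrderOf_dvd_iff_zsmul_eq_zero.mpr h2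
  rw [h3] at h4
  have h5 := (dvd_neg).mpr h4
  have e : -(1 - W.apOfModel l + (l : ℤ)) = W.apOfModel l - l - 1 := by ring
  rwa [e] at h5

/-- criterion for irreducibility -/
theorem irr_of (hΔ : W.Δ ≠ 0) (hW : W.IsSemistableModel) (hp : p.Prime) (hp2 : p ≠ 2)
    {l : ℕ} (hl : l.Prime) (hlp : l ≠ p) (hg : W.IsGoodPrimeFor l)
    (h : ¬ (p : ℤ) ∣ W.apOfModel l - l - 1) : W.ModRepIsIrreducible p := by
  by_contra hcon
  exact h (red_congr W hΔ hW hp hp2 hcon hl hlp hg)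

/-- an irreducible representation is not Eisenstein (no semistability needed) -/
theorem irr_exists (hΔ : W.Δ ≠ 0) (hp : p.Prime) (hp2 : p ≠ 2)
    (hirr : W.ModRepIsIrreducible p) {m : ℕ} (hm : m ≠ 0) :
    ∃ l : ℕ, l.Prime ∧ ¬ l ∣ m ∧ l ≠ p ∧ W.IsGoodPrimeFor l ∧
      ¬ (p : ℤ) ∣ W.apOfModel l - l - 1 := by
  obtain ⟨l, hl, hlm, hlp, hg, -, hne⟩ :=
    RTM.exists_nonEis_prime W hΔ hp hp2 hirr hm (M := 1) one_ne_zero
  refine ⟨l, hl, hlm, hlp, hg, fun h => hne ?_⟩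
  have h1 : ((W.apOfModel l - l - 1 : ℤ) : ZMod p) = 0 :=
    (ZMod.intCast_zmod_eq_zero_iff_dvd _ _).mpr h
  push_cast at h1
  linear_combination h1

theorem irr_exists' (hΔ : W.Δ ≠ 0) (hp : p.Prime) (hp2 : p ≠ 2)
    (hirr : W.ModRepIsIrreducible p) (S : Finset ℕ) :
    ∃ l : ℕ, l.Prime ∧ l ∉ S ∧ l ≠ p ∧ W.IsGoodPrimeFor l ∧
      ¬ (p : ℤ) ∣ W.apOfModel l - l - 1 := by
  have hm : (∏ q ∈ S.filter (fun q => q ≠ 0), q) ≠ 0 :=
    Finset.prod_ne_zero_iff.mpr fun q hq => (Finset.mem_filter.mp hq).2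
  obtain ⟨l, hl, hlm, h1, h2, h3⟩ := irr_exists W hΔ hp hp2 hirr hm
  refine ⟨l, hl, fun hlS => hlm ?_, h1, h2, h3⟩
  exact Finset.dvd_prod_of_mem (fun q => q) (Finset.mem_filter.mpr ⟨hlS, hl.ne_zero⟩)

/-- for semistable curves, irreducible = there is a non-Eisenstein good prime -/
theorem irr_iff (hΔ : W.Δ ≠ 0) (hW : W.IsSemistableModel) (hp : p.Prime) (hp2 : p ≠ 2)
    {m : ℕ} (hm : m ≠ 0) : W.ModRepIsIrreducible p ↔
      ∃ l : ℕ, l.Prime ∧ ¬ l ∣ m ∧ l ≠ p ∧ W.IsGoodPrimeFor l ∧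
        ¬ (p : ℤ) ∣ W.apOfModel l - l - 1 :=
  ⟨fun h => irr_exists W hΔ hp hp2 h hm, fun ⟨_, hl, _, hlp, hg, h⟩ =>
    irr_of W hΔ hW hp hp2 hl hlp hg h⟩

variable {W}

/-- irreducibility is transferred by congruences of traces -/
theorem irr_transfer {V : WeierstrassCurve ℤ} (hΔ : W.Δ ≠ 0) (hΔV : V.Δ ≠ 0)
    (hV : V.IsSemistableModel) (hp : p.Prime) (hp2 : p ≠ 2)
    (hirr : W.ModRepIsIrreducible p) {m : ℕ} (hm : m ≠ 0)
    (hc : ∀ l : ℕ, l.Prime → ¬ l ∣ m → l ≠ p → W.IsGoodPrimeFor l → V.IsGoodPrimeFor l →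
      (p : ℤ) ∣ W.apOfModel l - V.apOfModel l) : V.ModRepIsIrreducible p := by
  obtain ⟨l, hl, hlm, hlp, hg, h⟩ := irr_exists W hΔ hp hp2 hirr
    (mul_ne_zero hm (Int.natAbs_ne_zero.mpr hΔV))
  have hgV : V.IsGoodPrimeFor l := fun hd =>
    hlm (Dvd.dvd.mul_left (Int.natCast_dvd.mp hd) _)
  refine irr_of V hΔV hV hp hp2 hl hlp hgV fun h1 => h ?_
  have h2 := hc l hl (fun hd => hlm (Dvd.dvd.mul_right hd _)) hlp hg hgV
  have := dvd_add h2 h1
  have e : W.apOfModel l - V.apOfModel l + (V.apOfModel l - l - 1) = W.apOfModel l - l - 1 := by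
    ring
  rwa [e] at this

theorem irr_transfer' {V : WeierstrassCurve ℤ} (hΔ : W.Δ ≠ 0) (hΔV : V.Δ ≠ 0)
    (hV : V.IsSemistableModel) (hp : p.Prime) (hp2 : p ≠ 2)
    (hirr : W.ModRepIsIrreducible p) {m : ℕ} (hm : m ≠ 0)
    (hc : ∀ l : ℕ, l.Prime → ¬ l ∣ m → l ≠ p → W.IsGoodPrimeFor l → V.IsGoodPrimeFor l →
      (p : ℤ) ∣ V.apOfModel l - W.apOfModel l) : V.ModRepIsIrreducible p :=
  irr_transfer hΔ hΔV hV hp hp2 hirr hm fun l hl h1 h2 h3 h4 => by
    have := (dvd_neg).mpr (hc l hl h1 h2 h3 h4)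
    rwa [neg_sub] at this

variable (W)

/-- good reduction at `2` with `a₂ ≢ 3 mod 5` implies `5`-irreducible -/
theorem irr_five_of_two (hΔ : W.Δ ≠ 0) (hW : W.IsSemistableModel) (h2 : W.IsGoodPrimeFor 2)
    (h : ¬ (5 : ℤ) ∣ W.apOfModel 2 - 3) : W.ModRepIsIrreducible 5 := by
  refine irr_of W hΔ hW Nat.prime_five (by norm_num) Nat.prime_two (by norm_num) h2 ?_
  push_cast
  intro h1
  apply h
  have e : W.apOfModel 2 - 3 = W.apOfModel 2 - 2 - 1 := by ring
  rw [e]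
  exact h1

/-- good reduction at `2` with `a₂ ≢ 0 mod 3` implies `3`-irreducible -/
theorem irr_three_of_two (hΔ : W.Δ ≠ 0) (hW : W.IsSemistableModel) (h2 : W.IsGoodPrimeFor 2)
    (h : ¬ (3 : ℤ) ∣ W.apOfModel 2) : W.ModRepIsIrreducible 3 := by
  refine irr_of W hΔ hW Nat.prime_three (by norm_num) Nat.prime_two (by norm_num) h2 ?_
  push_cast
  intro h1
  apply h
  have := dvd_add h1 (dvd_refl 3)
  have e : W.apOfModel 2 - 2 - 1 + 3 = W.apOfModel 2 := by ring
  rwa [e] at this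

end Red

end Fermat.Agent.Sw3
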