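import Fermat.Agent.FrobE.CharTwo
import Fermat.Prelude.Def_FLTPrelim_Modularity

set_option autoImplicit false

/-!
# The trace of Frobenius at `2` in terms of `c₄` and `c₆`
-/

namespace Fermat.Agent.Sw3

open WeierstrassCurve Fermat.Agent.FrobE

lemma ap_two_eq (W : WeierstrassCurve ℤ) (h : ¬ (2 : ℤ) ∣ W.Δ) :
    W.apOfModel 2 = 3 - (cnt (W.a₁ : ZMod 2) W.a₂ W.a₃ W.a₄ W.a₆ : ℤ) := by
  have hΔ : (W.reductionMod 2).Δ ≠ 0 := by
    rw [reductionMod, map_Δ, eq_intCast, Ne, ZMod.intCast_zmod_eq_zero_iff_dvd]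
    exact h
  have h1 : Nat.card (W.reductionMod 2).toAffine.Point =
      cnt (W.a₁ : ZMod 2) W.a₂ W.a₃ W.a₄ W.a₆ := by
    have := card_two (W.reductionMod 2).toAffine hΔ
    rw [this]
    rfl
  simp only [apOfModel, traceOfFrobenius, WeierstrassCurve.card, Nat.card_zmod]
  rw [h1]
  norm_num

lemma cnt_one : ∀ a₂ a₃ a₄ a₆ : ZMod 2,
    (⟨1, a₂, a₃, a₄, a₆⟩ : WeierstrassCurve (ZMod 2)).Δ ≠ 0 →
      cnt 1 a₂ a₃ a₄ a₆ = if a₂ + a₃ = 0 then 4 else 2 := by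
  decide

lemma cnt_zero : ∀ a₂ a₃ a₄ a₆ : ZMod 2,
    (⟨0, a₂, a₃, a₄, a₆⟩ : WeierstrassCurve (ZMod 2)).Δ ≠ 0 →
      a₃ = 1 ∧ cnt 0 a₂ a₃ a₄ a₆ = if a₂ + a₄ = 0 then 3 else (if a₆ = 0 then 5 else 1) := by
  decide

lemma red_Δ (W : WeierstrassCurve ℤ) (h : ¬ (2 : ℤ) ∣ W.Δ) :
    (⟨(W.a₁ : ZMod 2), W.a₂, W.a₃, W.a₄, W.a₆⟩ : WeierstrassCurve (ZMod 2)).Δ ≠ 0 := by
  have hΔ : (W.map (Int.castRingHom (ZMod 2))).Δ ≠ 0 := by
    rw [map_Δ, eq_intCast, Ne, ZMod.intCast_zmod_eq_zero_iff_dvd]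
    exact h
  exact hΔ

lemma sq_odd {z : ℤ} (hz : Odd z) : ∃ m, z ^ 2 = 8 * m + 1 := by
  obtain ⟨j, hj⟩ := hz
  obtain ⟨i, hi⟩ : Even (j * (j + 1)) := Int.even_mul_succ_self j
  exact ⟨i, by rw [hj]; linear_combination 4 * hi⟩

lemma cast_two_eq_zero_iff (z : ℤ) : (z : ZMod 2) = 0 ↔ z % 2 = 0 := by
  rw [ZMod.intCast_zmod_eq_zero_iff_dvd]
  push_cast
  omega

lemma cast_two_eq_one_iff (z : ℤ) : (z : ZMod 2) = 1 ↔ z % 2 = 1 := by
  have h1 : (z : ZMod 2) = 1 ↔ ((z - 1 : ℤ) : ZMod 2) = 0 := by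
    push_cast; exact sub_eq_zero.symm
  rw [h1, cast_two_eq_zero_iff]
  omega

/-- the trace of Frobenius at `2` -/
theorem ap_two_cases (W : WeierstrassCurve ℤ) (h : ¬ (2 : ℤ) ∣ W.Δ) :
    (Odd W.c₄ ∧ W.c₆ % 8 = 7 ∧ W.apOfModel 2 = -1) ∨
    (Odd W.c₄ ∧ W.c₆ % 8 = 3 ∧ W.apOfModel 2 = 1) ∨
    ∃ a b : ℤ, W.c₄ = 16 * a ∧ W.c₆ = 8 * b ∧ b % 4 = 1 ∧
      ((Even a ∧ W.apOfModel 2 = 0) ∨ (Odd a ∧ b % 8 = 5 ∧ W.apOfModel 2 = -2) ∨
        (Odd a ∧ b % 8 = 1 ∧ W.apOfModel 2 = 2)) := by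
  have hap := ap_two_eq W h
  have hΔ := red_Δ W h
  rcases Int.even_or_odd W.a₁ with h1 | h1
  · -- supersingular
    right; right
    obtain ⟨α, hα⟩ := h1
    have e1 : (W.a₁ : ZMod 2) = 0 := by
      rw [cast_two_eq_zero_iff]; omega
    rw [e1] at hap hΔ
    obtain ⟨h3, hcnt⟩ := cnt_zero _ _ _ _ hΔ
    rw [hcnt] at hap
    rw [cast_two_eq_one_iff] at h3
    have h24 : ((W.a₂ : ZMod 2) + (W.a₄ : ZMod 2) = 0) ↔ (W.a₂ + W.a₄) % 2 = 0 := by
      rw [← cast_two_eq_zero_iff]; push_cast; rfl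
    have h3o : Odd W.a₃ := Int.odd_iff.mpr h3
    obtain ⟨m, hm⟩ := sq_odd h3o
    set s : ℤ := α ^ 2 + W.a₂ with hs
    set r : ℤ := W.a₄ + α * W.a₃ with hr
    have eb2 : W.b₂ = 4 * s := by
      simp only [b₂]; rw [hα, hs]; ring
    have eb4 : W.b₄ = 2 * r := by
      simp only [b₄]; rw [hα, hr]; ring
    have eb6 : W.b₆ = 8 * m + 1 + 4 * W.a₆ := by
      simp only [b₆]; rw [hm]
    have hc4 : W.c₄ = 16 * (s ^ 2 - 3 * r) := by
      simp only [c₄]; rw [eb2, eb4]; ring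
    have hc6 : W.c₆ = 8 * (-8 * s ^ 3 + 36 * (s * r) - 27 * (8 * m + 1 + 4 * W.a₆)) := by
      simp only [c₆]; rw [eb2, eb4, eb6]; ring
    -- parities
    have ps : s % 2 = (α + W.a₂) % 2 := by
      have : (α ^ 2) % 2 = α % 2 := by
        rcases Int.even_or_odd α with h | h
        · have h' : Even (α ^ 2) := h.pow_of_ne_zero (by norm_num)
          rw [Int.even_iff.mp h, Int.even_iff.mp h']
        · rw [Int.odd_iff.mp h, Int.odd_iff.mp h.pow]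
      omega
    have pr : r % 2 = (α + W.a₄) % 2 := by
      have : (α * W.a₃) % 2 = α % 2 := by
        rw [Int.mul_emod, h3]; omega
      omega
    have ps2 : (s ^ 2) % 2 = s % 2 := by
      rcases Int.even_or_odd s with h | h
      · have h' : Even (s ^ 2) := h.pow_of_ne_zero (by norm_num)
        rw [Int.even_iff.mp h, Int.even_iff.mp h']
      · rw [Int.odd_iff.mp h, Int.odd_iff.mp h.pow]
    refine ⟨_, _, hc4, hc6, by omega, ?_⟩
    by_cases hpar : (W.a₂ + W.a₄) % 2 = 0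
    · left
      rw [if_pos (h24.mpr hpar)] at hap
      refine ⟨Int.even_iff.mpr (by omega), by rw [hap]; norm_num⟩
    · right
      rw [if_neg (fun h => hpar (h24.mp h))] at hap
      have hodd : Odd (s ^ 2 - 3 * r) := Int.odd_iff.mpr (by omega)
      have hsr : (s * r) % 2 = 0 := by
        have : s % 2 = 0 ∨ r % 2 = 0 := by omega
        rcases this with h | h <;> simp [Int.mul_emod, h]
      by_cases h6 : W.a₆ % 2 = 0
      · left
        rw [if_pos ((cast_two_eq_zero_iff _).mpr h6)] at hap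
        exact ⟨hodd, by omega, by rw [hap]; norm_num⟩
      · right
        rw [if_neg (fun h => h6 ((cast_two_eq_zero_iff _).mp h))] at hap
        exact ⟨hodd, by omega, by rw [hap]; norm_num⟩
  · -- ordinary
    have e1 : (W.a₁ : ZMod 2) = 1 := by
      rw [cast_two_eq_one_iff]; exact Int.odd_iff.mp h1
    rw [e1] at hap hΔ
    have hcnt := cnt_one _ _ _ _ hΔ
    rw [hcnt] at hap
    have h23 : ((W.a₂ : ZMod 2) + (W.a₃ : ZMod 2) = 0) ↔ (W.a₂ + W.a₃) % 2 = 0 := by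
      rw [← cast_two_eq_zero_iff]; push_cast; rfl
    obtain ⟨m, hm⟩ := sq_odd h1
    have eb2 : W.b₂ = 8 * m + 1 + 4 * W.a₂ := by
      simp only [b₂]; rw [hm]
    have hb2o : Odd W.b₂ := Int.odd_iff.mpr (by omega)
    obtain ⟨n, hn⟩ := sq_odd hb2o
    have hc4 : Odd W.c₄ := by
      have : W.c₄ = 8 * n + 1 - 24 * W.b₄ := by simp only [c₄]; rw [hn]
      rw [this, Int.odd_iff]; omega
    have hz : (W.b₂ * W.b₄) % 2 = W.a₃ % 2 := by
      have h4 : W.b₄ % 2 = W.a₃ % 2 := by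
        have h5 : (W.a₁ * W.a₃) % 2 = W.a₃ % 2 := by
          rw [Int.mul_emod, Int.odd_iff.mp h1]; omega
        simp only [b₄]; omega
      rw [Int.mul_emod, Int.odd_iff.mp hb2o, h4]; omega
    have hc6 : W.c₆ = -(W.b₂ + 8 * (n * W.b₂)) + 36 * (W.b₂ * W.b₄) - 216 * W.b₆ := by
      simp only [c₆]; linear_combination -W.b₂ * hn
    by_cases hpar : (W.a₂ + W.a₃) % 2 = 0
    · left
      rw [if_pos (h23.mpr hpar)] at hap
      exact ⟨hc4, by omega, by rw [hap]; norm_num⟩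
    · right; left
      rw [if_neg (fun h => hpar (h23.mp h))] at hap
      exact ⟨hc4, by omega, by rw [hap]; norm_num⟩

end Fermat.Agent.Sw3
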