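import Mathlib
import Fermat.Agent.ZCurve.Main

set_option autoImplicit false

/-!
# Members of the Hesse pencil close to the given curve at all odd bad places
-/

namespace Fermat.Agent.Sw3

open WeierstrassCurve Fermat.Agent.S52 Fermat.Agent.ZCurve

/-- the chosen parameters of the pencil: `(1, 0)` at the odd places in question, `(t, 1)` at 2 -/
theorem exists_point {Δ : ℤ} (hΔ : Δ ≠ 0) {B : ℕ} (hB : B ≠ 0) (t : ℤ) :
    ∃ x y : ℤ, IsCoprime x y ∧ (16 : ℤ) ∣ x - t ∧ (16 : ℤ) ∣ y - 1 ∧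
      ∀ p : ℕ, p.Prime → p ≠ 2 → (p = 3 ∨ p ∣ B ∨ (p : ℤ) ∣ Δ) →
        ((p : ℕ) : ℤ) ^ 4 ∣ x - 1 ∧ ((p : ℕ) : ℤ) ^ 4 ∣ y := by
  set n : ℕ := 3 * B * Δ.natAbs with hn
  have hn0 : n ≠ 0 := by
    rw [hn]
    exact mul_ne_zero (mul_ne_zero (by norm_num) hB) (Int.natAbs_ne_zero.mpr hΔ)
  set M : ℕ := n / 2 ^ n.factorization 2 with hM
  have hfac : 2 ^ n.factorization 2 * M = n := Nat.ordProj_mul_ordCompl_eq_self n 2
  have hMo : ¬ 2 ∣ M := Nat.not_dvd_ordCompl Nat.prime_two hn0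
  have hMp : ∀ p : ℕ, p.Prime → p ≠ 2 → (p = 3 ∨ p ∣ B ∨ (p : ℤ) ∣ Δ) → p ∣ M := by
    intro p hp hp2 h
    have h1 : p ∣ n := by
      rw [hn]
      rcases h with rfl | h | h
      · exact Dvd.dvd.mul_right (Dvd.intro _ rfl) _
      · exact Dvd.dvd.mul_right (Dvd.dvd.mul_left h _) _
      · exact Dvd.dvd.mul_left (Int.natCast_dvd.mp h) _
    rw [← hfac] at h1
    rcases (Nat.Prime.dvd_mul hp).mp h1 with h2 | h2
    · exact absurd ((Nat.prime_dvd_prime_iff_eq hp Nat.prime_two).mp (hp.dvd_of_dvd_pow h2)) hp2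
    · exact h2
  have h16 : (16 : ℤ) ∣ (M : ℤ) ^ 4 - 1 := by
    obtain ⟨k, hk⟩ : ∃ k : ℕ, M = 2 * k + 1 := ⟨M / 2, by omega⟩
    have h2 : (2 : ℤ) ∣ (k : ℤ) * (k + 1) := by
      rcases Int.even_or_odd (k : ℤ) with ⟨r, hr⟩ | ⟨r, hr⟩
      · exact ⟨r * (k + 1), by rw [hr]; ring⟩
      · exact ⟨k * (r + 1), by rw [hr]; ring⟩
    obtain ⟨r, hr⟩ := h2
    refine ⟨4 * r ^ 2 + r, ?_⟩
    have e : (M : ℤ) = 2 * k + 1 := by exact_mod_cast hk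
    rw [e]
    linear_combination (16 * ((k : ℤ) * (k + 1)) + 32 * r + 8) * hr
  refine ⟨1 + (M : ℤ) ^ 4 * (t - 1), (M : ℤ) ^ 4, ?_, ?_, h16, ?_⟩
  · exact ⟨1, -(t - 1), by ring⟩
  · obtain ⟨r, hr⟩ := h16
    exact ⟨r * (t - 1), by linear_combination (t - 1) * hr⟩
  · intro p hp hp2 h
    have h1 : ((p : ℕ) : ℤ) ^ 4 ∣ (M : ℤ) ^ 4 :=
      pow_dvd_pow_of_dvd (Int.natCast_dvd_natCast.mpr (hMp p hp hp2 h)) 4
    refine ⟨?_, h1⟩
    rw [add_sub_cancel_left]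
    exact Dvd.dvd.mul_right h1 _

/-- stability of the condition at 3 -/
theorem locThree_near {a b x y : ℤ} (h3 : LocThree a b) (hx : (3 : ℤ) ^ 4 ∣ x - 1)
    (hy : (3 : ℤ) ^ 4 ∣ y) : LocThree (C4f a b x y) (C6f a b x y) := by
  have hx3 : ((27 : ℕ) : ℤ) ∣ x - 1 := (by norm_num : ((27 : ℕ) : ℤ) ∣ (3 : ℤ) ^ 4).trans hx
  have hy3 : ((27 : ℕ) : ℤ) ∣ y - 0 := by
    rw [sub_zero]; exact (by norm_num : ((27 : ℕ) : ℤ) ∣ (3 : ℤ) ^ 4).trans hy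
  have e1 : C4f a b 1 0 = a := by simp [C4f]
  have e2 : C6f a b 1 0 = b := by simp [C6f]
  have h4 := C4f_congr (a := a) (b := b) (m := 27) hx3 hy3
  have h6 := C6f_congr (a := a) (b := b) (m := 27) hx3 hy3
  rw [e1] at h4
  rw [e2] at h6
  obtain ⟨β, ⟨r1, hr1⟩, ⟨r2, hr2⟩⟩ := h3
  obtain ⟨s1, hs1⟩ := h4
  obtain ⟨s2, hs2⟩ := h6
  push_cast at hs1 hs2
  exact ⟨β, ⟨r1 - 3 * β * s1 - 2 * s2, by linear_combination hr1 - 3 * β * hs1 - 2 * hs2⟩,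
    ⟨r2 - 9 * s1, by linear_combination hr2 - hs1⟩⟩

theorem locThree_of (W : WeierstrassCurve ℤ) : LocThree W.c₄ W.c₆ := by
  refine ⟨W.b₂, ⟨16 * W.b₆, ?_⟩, ⟨8 * W.b₄, ?_⟩⟩
  · simp only [c₄, c₆]; ring
  · simp only [c₄]; ring

section

variable {W V : WeierstrassCurve ℤ} {x y d : ℤ}

/-- the discriminant of the member -/
theorem disc_eq (hD : Df W.c₄ W.c₆ x y = 4 ^ 4 * d) (h4 : C4f W.c₄ W.c₆ x y = 4 ^ 4 * V.c₄)
    (h6 : C6f W.c₄ W.c₆ x y = 4 ^ 6 * V.c₆) : V.Δ = W.Δ * d ^ 3 := by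
  have h := form_id W.c₄ W.c₆ x y
  rw [h4, h6, hD] at h
  have r1 := W.c_relation
  have r2 := V.c_relation
  have e : (1728 * 4 ^ 12 : ℤ) * V.Δ = 1728 * 4 ^ 12 * (W.Δ * d ^ 3) := by
    linear_combination h + 4 ^ 12 * r2 - 4 ^ 12 * d ^ 3 * r1
  exact mul_left_cancel₀ (by norm_num) e

private lemma not_dvd_four {p : ℕ} (hp : p.Prime) (hp2 : p ≠ 2) (k : ℕ) :
    ¬ (p : ℤ) ∣ 4 ^ k := by
  intro h
  have h1 : p ∣ 4 ^ k := by exact_mod_cast h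
  have h2 : p ∣ 2 ^ 2 := by simpa using hp.dvd_of_dvd_pow h1
  exact hp2 ((Nat.prime_dvd_prime_iff_eq hp Nat.prime_two).mp (hp.dvd_of_dvd_pow h2))

/-- the discriminant of the member, away from 2 -/
theorem dvd_disc_iff (hD : Df W.c₄ W.c₆ x y = 4 ^ 4 * d)
    (h4 : C4f W.c₄ W.c₆ x y = 4 ^ 4 * V.c₄) (h6 : C6f W.c₄ W.c₆ x y = 4 ^ 6 * V.c₆)
    {p : ℕ} (hp : p.Prime) (hp2 : p ≠ 2) :
    (p : ℤ) ∣ V.Δ ↔ (p : ℤ) ∣ W.Δ ∨ (p : ℤ) ∣ Df W.c₄ W.c₆ x y := by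
  have hP := Nat.prime_iff_prime_int.mp hp
  rw [disc_eq hD h4 h6, hD, hP.dvd_mul, hP.dvd_mul]
  constructor
  · rintro (h | h)
    · exact Or.inl h
    · exact Or.inr (Or.inr (hP.dvd_of_dvd_pow h))
  · rintro (h | h | h)
    · exact Or.inl h
    · exact absurd h (not_dvd_four hp hp2 4)
    · exact Or.inr (h.trans (dvd_pow_self _ (by norm_num)))

lemma not_dvd_D {p : ℕ} (hp : p.Prime) (hx : ((p : ℕ) : ℤ) ^ 4 ∣ x - 1)
    (hy : ((p : ℕ) : ℤ) ^ 4 ∣ y) (a b : ℤ) :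
    ¬ (p : ℤ) ∣ Df a b x y ∧ (p : ℤ) ∣ C4f a b x y - a ∧ (p : ℤ) ∣ C6f a b x y - b := by
  have hx1 : ((p : ℕ) : ℤ) ∣ x - 1 := (dvd_pow_self _ (by norm_num)).trans hx
  have hy1 : ((p : ℕ) : ℤ) ∣ y - 0 := by
    rw [sub_zero]; exact (dvd_pow_self _ (by norm_num)).trans hy
  have hD := Df_congr (a := a) (b := b) hx1 hy1
  have h4 := C4f_congr (a := a) (b := b) hx1 hy1
  have h6 := C6f_congr (a := a) (b := b) hx1 hy1
  have e0 : Df a b 1 0 = 1 := by simp [Df]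
  have e1 : C4f a b 1 0 = a := by simp [C4f]
  have e2 : C6f a b 1 0 = b := by simp [C6f]
  rw [e0] at hD
  rw [e1] at h4
  rw [e2] at h6
  refine ⟨not_dvd_of_congr hD ?_, h4, h6⟩
  intro h
  exact hp.one_lt.ne' (by exact_mod_cast Int.eq_one_of_dvd_one (by positivity) h)

variable {B : ℕ}

/-- primes away from 6 and the discriminant -/
lemma good_facts (W : WeierstrassCurve ℤ) {p : ℕ} (hp : p.Prime) (hp2 : p ≠ 2) (hp3 : p ≠ 3)
    (hg : W.IsGoodPrimeFor p) :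
    (2 : ZMod p) ≠ 0 ∧ (3 : ZMod p) ≠ 0 ∧ (W.c₄ : ZMod p) ^ 3 ≠ (W.c₆ : ZMod p) ^ 2 := by
  have hP := Nat.prime_iff_prime_int.mp hp
  have k2 : ¬ (p : ℤ) ∣ 2 := fun h =>
    hp2 ((Nat.prime_dvd_prime_iff_eq hp Nat.prime_two).mp (by exact_mod_cast h))
  have k3 : ¬ (p : ℤ) ∣ 3 := fun h =>
    hp3 ((Nat.prime_dvd_prime_iff_eq hp Nat.prime_three).mp (by exact_mod_cast h))
  refine ⟨?_, ?_, ?_⟩
  · intro h
    exact k2 ((ZMod.intCast_zmod_eq_zero_iff_dvd 2 p).mp (by exact_mod_cast h))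
  · intro h
    exact k3 ((ZMod.intCast_zmod_eq_zero_iff_dvd 3 p).mp (by exact_mod_cast h))
  · intro h
    have h7 : ((W.c₄ ^ 3 - W.c₆ ^ 2 : ℤ) : ZMod p) = 0 := by push_cast; rw [h, sub_self]
    rw [← W.c_relation, ZMod.intCast_zmod_eq_zero_iff_dvd] at h7
    have e : 1728 * W.Δ = 2 ^ 6 * (3 ^ 3 * W.Δ) := by ring
    rw [e] at h7
    rcases hP.dvd_or_dvd h7 with h5 | h5
    · exact k2 (hP.dvd_of_dvd_pow h5)
    · rcases hP.dvd_or_dvd h5 with h7 | h7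
      · exact k3 (hP.dvd_of_dvd_pow h7)
      · exact hg h7

/-- number of points of the reduction in terms of the short model -/
lemma card_red (W : WeierstrassCurve ℤ) {p : ℕ} (hp : p.Prime) (hp2 : p ≠ 2) (hp3 : p ≠ 3)
    (hg : W.IsGoodPrimeFor p) :
    Nat.card (W.reductionMod p).toAffine.Point
      = Nat.card (shortE (W.c₄ : ZMod p) (W.c₆ : ZMod p)).toAffine.Point := by
  have hlp : Fact p.Prime := ⟨hp⟩
  obtain ⟨k2, k3, -⟩ := good_facts W hp hp2 hp3 hg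
  have kΔ : (W.reductionMod p).Δ ≠ 0 := by
    rw [reductionMod, map_Δ, eq_intCast, Ne, ZMod.intCast_zmod_eq_zero_iff_dvd]
    exact hg
  rw [S52A.card_short (W.reductionMod p) k2 k3 kΔ]
  simp only [reductionMod, map_c₄, map_c₆, eq_intCast]

/-- The general member of the pencil, scaled by 4. -/
theorem member (hss : W.IsSemistableModel) (hΔ : W.Δ ≠ 0)
    (hcop : IsCoprime x y)
    (hloc : ∀ p : ℕ, p.Prime → p ≠ 2 → (p = 3 ∨ p ∣ B ∨ (p : ℤ) ∣ W.Δ) →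
      ((p : ℕ) : ℤ) ^ 4 ∣ x - 1 ∧ ((p : ℕ) : ℤ) ^ 4 ∣ y)
    (hD : Df W.c₄ W.c₆ x y = 4 ^ 4 * d) (h4 : C4f W.c₄ W.c₆ x y = 4 ^ 4 * V.c₄)
    (h6 : C6f W.c₄ W.c₆ x y = 4 ^ 6 * V.c₆) (hV2 : (2 : ℤ) ∣ V.Δ → ¬ (2 : ℤ) ∣ V.c₄) :
    V.Δ ≠ 0 ∧ V.IsSemistableModel ∧
      (∀ q : ℕ, q.Prime → q ≠ 2 → q ∣ B → (q : ℤ) ∣ V.Δ → (q : ℤ) ∣ W.Δ) ∧
      (∀ q : ℕ, q.Prime → q ≠ 2 → q ≠ 3 → q ∣ B → W.IsGoodPrimeFor q →
        V.apOfModel q = W.apOfModel q) ∧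
      (∀ l : ℕ, l.Prime → l ≠ 2 → l ≠ 3 → W.IsGoodPrimeFor l → V.IsGoodPrimeFor l →
        (3 : ℤ) ∣ W.apOfModel l - V.apOfModel l) := by
  have htr := fun {p : ℕ} (hp : p.Prime) (hp2 : p ≠ 2) => dvd_disc_iff (W := W) (V := V)
    hD h4 h6 hp hp2
  have hD3 : ¬ (3 : ℤ) ∣ Df W.c₄ W.c₆ x y := by
    obtain ⟨hx, hy⟩ := hloc 3 Nat.prime_three (by norm_num) (Or.inl rfl)
    exact_mod_cast (not_dvd_D Nat.prime_three hx hy W.c₄ W.c₆).1
  have hd0 : d ≠ 0 := by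
    rintro rfl
    apply hD3
    rw [hD, mul_zero]
    exact dvd_zero _
  have hVΔ : V.Δ ≠ 0 := by
    rw [disc_eq hD h4 h6]
    exact mul_ne_zero hΔ (pow_ne_zero _ hd0)
  refine ⟨hVΔ, ?_, ?_, ?_, ?_⟩
  · -- semistability
    intro p hp hd
    have hP := Nat.prime_iff_prime_int.mp hp
    by_cases hp2 : p = 2
    · subst hp2
      exact_mod_cast hV2 (by exact_mod_cast hd)
    · by_cases hbad : p = 3 ∨ p ∣ B ∨ (p : ℤ) ∣ W.Δ
      · obtain ⟨hx, hy⟩ := hloc p hp hp2 hbad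
        obtain ⟨k1, k2, -⟩ := not_dvd_D hp hx hy W.c₄ W.c₆
        have h5 := ((htr hp hp2).mp hd).resolve_right k1
        intro h8
        refine hss p hp h5 ?_
        have h9 : (p : ℤ) ∣ C4f W.c₄ W.c₆ x y := by rw [h4]; exact Dvd.dvd.mul_left h8 _
        have := dvd_sub h9 k2
        rwa [sub_sub_cancel] at this
      · push Not at hbad
        obtain ⟨hp3, -, hg⟩ := hbad
        have h5 := ((htr hp hp2).mp hd).resolve_left hg
        have : Fact p.Prime := ⟨hp⟩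
        obtain ⟨k2, k3, kab⟩ := good_facts W hp hp2 hp3 hg
        intro h8
        have h9 : (p : ℤ) ∣ C4f W.c₄ W.c₆ x y := by rw [h4]; exact Dvd.dvd.mul_left h8 _
        rw [← ZMod.intCast_zmod_eq_zero_iff_dvd, cast_C4f] at h9
        rw [← ZMod.intCast_zmod_eq_zero_iff_dvd, cast_Df] at h5
        refine C4f_ne_zero k2 k3 kab ?_ h5 h9
        rintro ⟨e1, e2⟩
        rw [ZMod.intCast_zmod_eq_zero_iff_dvd] at e1 e2
        exact hP.not_isUnit (hcop.isUnit_of_dvd' e1 e2)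
  · intro q hq hq2 hqB hqd
    obtain ⟨hx, hy⟩ := hloc q hq hq2 (Or.inr (Or.inl hqB))
    exact ((htr hq hq2).mp hqd).resolve_right (not_dvd_D hq hx hy W.c₄ W.c₆).1
  · intro q hq hq2 hq3 hqB hg
    obtain ⟨hx, hy⟩ := hloc q hq hq2 (Or.inr (Or.inl hqB))
    obtain ⟨k1, k4, k6⟩ := not_dvd_D hq hx hy W.c₄ W.c₆
    have hg' : V.IsGoodPrimeFor q := by
      intro hd
      rcases (htr hq hq2).mp hd with h | h
      · exact hg h
      · exact k1 h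
    have : Fact q.Prime := ⟨hq⟩
    obtain ⟨k2, k3, kab⟩ := good_facts V hq hq2 hq3 hg'
    have ku : ((4 : ℤ) : ZMod q) ≠ 0 := by
      rw [Ne, ZMod.intCast_zmod_eq_zero_iff_dvd]
      have := not_dvd_four hq hq2 1
      simpa using this
    have e4 : (W.c₄ : ZMod q) = ((4 : ℤ) : ZMod q) ^ 4 * (V.c₄ : ZMod q) := by
      have h := (ZMod.intCast_zmod_eq_zero_iff_dvd _ q).mpr k4
      push_cast at h
      have h' := sub_eq_zero.mp h
      rw [← h', h4]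
      push_cast; ring
    have e6 : (W.c₆ : ZMod q) = ((4 : ℤ) : ZMod q) ^ 6 * (V.c₆ : ZMod q) := by
      have h := (ZMod.intCast_zmod_eq_zero_iff_dvd _ q).mpr k6
      push_cast at h
      have h' := sub_eq_zero.mp h
      rw [← h', h6]
      push_cast; ring
    have hcard : Nat.card (V.reductionMod q).toAffine.Point
        = Nat.card (W.reductionMod q).toAffine.Point := by
      rw [card_red W hq hq2 hq3 hg, card_red V hq hq2 hq3 hg', e4, e6,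
        card_shortE_scale k2 k3 kab ku]
    simp only [WeierstrassCurve.apOfModel, WeierstrassCurve.traceOfFrobenius,
      WeierstrassCurve.card, hcard]
  · intro l hl hl2 hl3 hg hg'
    have hlp : Fact l.Prime := ⟨hl⟩
    obtain ⟨k2, k3, kab⟩ := good_facts W hl hl2 hl3 hg
    obtain ⟨-, -, kab1⟩ := good_facts V hl hl2 hl3 hg'
    have kD : Df (W.c₄ : ZMod l) (W.c₆ : ZMod l) (x : ZMod l) (y : ZMod l) ≠ 0 := by
      rw [← cast_Df, Ne, ZMod.intCast_zmod_eq_zero_iff_dvd]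
      intro h5
      exact hg' ((htr hl hl2).mpr (Or.inr h5))
    have hcount := count_short3 k2 k3 kab kD
    have ku : ((4 : ℤ) : ZMod l) ≠ 0 := by
      rw [Ne, ZMod.intCast_zmod_eq_zero_iff_dvd]
      have := not_dvd_four hl hl2 1
      simpa using this
    have hc2 : Nat.card (V.reductionMod l).toAffine.Point
        = Nat.card (shortE (C4f (W.c₄ : ZMod l) (W.c₆ : ZMod l) (x : ZMod l) (y : ZMod l))
            (C6f (W.c₄ : ZMod l) (W.c₆ : ZMod l) (x : ZMod l) (y : ZMod l))).toAffine.Point := by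
      rw [card_red V hl hl2 hl3 hg', ← cast_C4f, ← cast_C6f, h4, h6]
      have e1 : ((4 ^ 4 * V.c₄ : ℤ) : ZMod l) = ((4 : ℤ) : ZMod l) ^ 4 * (V.c₄ : ZMod l) := by
        push_cast; ring
      have e2 : ((4 ^ 6 * V.c₆ : ℤ) : ZMod l) = ((4 : ℤ) : ZMod l) ^ 6 * (V.c₆ : ZMod l) := by
        push_cast; ring
      rw [e1, e2, card_shortE_scale k2 k3 kab1 ku]
    have hfin : W.apOfModel l - V.apOfModel l
        = -((Nat.card (shortE (W.c₄ : ZMod l) (W.c₆ : ZMod l)).toAffine.Point : ℤ)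
          - (Nat.card (shortE (C4f (W.c₄ : ZMod l) (W.c₆ : ZMod l) (x : ZMod l) (y : ZMod l))
            (C6f (W.c₄ : ZMod l) (W.c₆ : ZMod l) (x : ZMod l) (y : ZMod l))).toAffine.Point :
              ℤ)) := by
      simp only [WeierstrassCurve.apOfModel, WeierstrassCurve.traceOfFrobenius,
        WeierstrassCurve.card, card_red W hl hl2 hl3 hg, hc2]
      ring
    rw [hfin]
    exact (dvd_neg).mpr hcount

end

end Fermat.Agent.Sw3
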