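import Mathlib

set_option autoImplicit false

/-!
# Integral models with prescribed `c₄`, `c₆`: good supersingular reduction at `2`
-/

namespace Fermat.Agent.Sw3

open WeierstrassCurve

/-- existence of an integral model with `a₁ = 0`, `a₃ = 1` -/
theorem exists_model_ss {a b Δ1 β : ℤ} (h : (16 * a) ^ 3 - (8 * b) ^ 2 = 1728 * Δ1)
    (hb : b % 4 = 1) (hβ : 27 ∣ β ^ 3 - 3 * β * (16 * a) - 2 * (8 * b))
    (hβ' : 3 ∣ β ^ 2 - 16 * a) :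
    ∃ W : WeierstrassCurve ℤ, W.c₄ = 16 * a ∧ W.c₆ = 8 * b ∧ W.Δ = Δ1 := by
  obtain ⟨r, hr⟩ := hβ
  obtain ⟨s, hs⟩ := hβ'
  obtain ⟨Y, hY⟩ : ∃ Y, Y = 1372 * β ^ 3 - 84 * β * a - b := ⟨_, rfl⟩
  obtain ⟨Z, hZ⟩ : ∃ Z, Z = -5 * (r + 813 * β ^ 3 - 48 * β * a) + 3 * Y := ⟨_, rfl⟩
  have hYZ : Y = 27 * Z := by
    rw [hZ, hY]
    linear_combination (-5) * hr
  obtain ⟨a6, ha6⟩ : ∃ a6, Z = 1 + 4 * a6 := by
    have h1 : Y = 4 * (343 * β ^ 3 - 21 * β * a) - b := by rw [hY]; ring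
    refine ⟨Z / 4, ?_⟩
    omega
  obtain ⟨a4, ha4⟩ : ∃ a4, a4 = 16 * β ^ 2 + s + 5 * a := ⟨_, rfl⟩
  have h3 : 3 * a4 = 49 * β ^ 2 - a := by rw [ha4]; linear_combination -hs
  have h27 : 27 * (1 + 4 * a6) = 1372 * β ^ 3 - 84 * β * a - b := by
    rw [← ha6, ← hYZ, hY]
  have hc4 : (⟨0, 7 * β, 1, a4, a6⟩ : WeierstrassCurve ℤ).c₄ = 16 * a := by
    simp only [c₄, b₂, b₄]
    linear_combination (-16) * h3
  have hc6 : (⟨0, 7 * β, 1, a4, a6⟩ : WeierstrassCurve ℤ).c₆ = 8 * b := by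
    simp only [c₆, b₂, b₄, b₆]
    linear_combination (-8) * h27 + 672 * β * h3
  refine ⟨_, hc4, hc6, ?_⟩
  have := (⟨0, 7 * β, 1, a4, a6⟩ : WeierstrassCurve ℤ).c_relation
  rw [hc4, hc6, h] at this
  linarith

end Fermat.Agent.Sw3
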