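import Fermat.Agent.ZCurve.Local

set_option autoImplicit false

/-!
# The two 2-adic discs in the Hesse pencil
-/

namespace Fermat.Agent.Sw3

open Fermat.Agent.ZCurve

lemma sq_odd' {z : ℤ} (hz : Odd z) : ∃ m, z ^ 2 = 8 * m + 1 := by
  obtain ⟨j, hj⟩ := hz
  obtain ⟨i, hi⟩ : Even (j * (j + 1)) := Int.even_mul_succ_self j
  exact ⟨i, by rw [hj]; linear_combination 4 * hi⟩

/-- the disc `4 ∣ x`, `y` odd of a supersingular pencil -/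
theorem disc_ss {a b x y : ℤ} (hb : b % 4 = 1) (hx : 4 ∣ x) (hy : Odd y) :
    ∃ d c4 c6 : ℤ, Df (16 * a) (8 * b) x y = 256 * d ∧ C4f (16 * a) (8 * b) x y = 256 * c4 ∧
      C6f (16 * a) (8 * b) x y = 4096 * c6 ∧ Odd c4 ∧ c6 % 4 = 3 ∧
      (Odd a → Odd d ∧ (8 : ℤ) ∣ c6 + b) ∧ (Even a → Even d) := by
  obtain ⟨X, rfl⟩ := hx
  have hbo : Odd b := Int.odd_iff.mpr (by omega)
  obtain ⟨n, hn⟩ := sq_odd' hbo
  obtain ⟨m, hm⟩ := sq_odd' hy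
  -- expressions modulo 8
  obtain ⟨c4, hc4⟩ : ∃ c4, c4 = 16 * a * X ^ 4 + 8 * b * X ^ 3 * y + 96 * a ^ 2 * X ^ 2 * y ^ 2 +
      8 * a * b * X * y ^ 3 - (48 * a ^ 3 - b ^ 2) * y ^ 4 := ⟨_, rfl⟩
  have e4 : c4 = 8 * (2 * a * X ^ 4 + b * X ^ 3 * y + 12 * a ^ 2 * X ^ 2 * y ^ 2
      + a * b * X * y ^ 3 - 6 * a ^ 3 * y ^ 4 + n * y ^ 4 + m * (y ^ 2 + 1)) + 1 := by
    rw [hc4]
    linear_combination y ^ 4 * hn + (y ^ 2 + 1) * hm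
  obtain ⟨T, hT⟩ : ∃ T, T = X * (X ^ 2 + a) := ⟨_, rfl⟩
  have hTpar : Odd a → Even T := by
    intro ha
    rw [hT]
    rcases Int.even_or_odd X with hX | hX
    · exact hX.mul_right _
    · exact ((hX.pow).add_odd ha).mul_left _
  obtain ⟨c6, hc6⟩ : ∃ c6, c6 = 8 * b * X ^ 6 + 384 * a ^ 2 * X ^ 5 * y +
      120 * a * b * X ^ 4 * y ^ 2 +
      20 * b ^ 2 * X ^ 3 * y ^ 3 + 120 * a ^ 2 * b * X ^ 2 * y ^ 4 +
      (1152 * a ^ 4 - 12 * a * b ^ 2) * X * y ^ 5 + (72 * a ^ 3 * b - b ^ 3) * y ^ 6 := ⟨_, rfl⟩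
  obtain ⟨U, hU⟩ : ∃ U, c6 = 8 * U + 4 * (T * y) - b := by
    refine ⟨b * X ^ 6 + 48 * a ^ 2 * X ^ 5 * y + 15 * a * b * X ^ 4 * y ^ 2 +
      20 * n * X ^ 3 * y ^ 3 + 20 * m * X ^ 3 * y + 2 * X ^ 3 * y +
      15 * a ^ 2 * b * X ^ 2 * y ^ 4 +
      144 * a ^ 4 * X * y ^ 5 - 12 * a * n * X * y ^ 5 - 12 * a * X * y * (m * (y ^ 2 + 1)) -
      2 * a * X * y + 9 * a ^ 3 * b * y ^ 6 - b * n * y ^ 6 - b * m * (y ^ 4 + y ^ 2 + 1), ?_⟩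
    rw [hT, hc6]
    linear_combination (20 * X ^ 3 * y ^ 3 - 12 * a * X * y ^ 5 - b * y ^ 6) * hn +
      (20 * X ^ 3 * y - 12 * a * X * y * (y ^ 2 + 1) - b * (y ^ 4 + y ^ 2 + 1)) * hm
  refine ⟨X ^ 4 - 6 * a * X ^ 2 * y ^ 2 - b * X * y ^ 3 - 3 * a ^ 2 * y ^ 4, c4, c6,
    by simp only [Df]; ring, by rw [hc4]; simp only [C4f]; ring,
    by rw [hc6]; simp only [C6f]; ring, Int.odd_iff.mpr (by omega), by omega, ?_, ?_⟩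
  · intro ha
    constructor
    · have h1 : Odd (3 * a ^ 2 * y ^ 4) := ((by decide : Odd (3 : ℤ)).mul ha.pow).mul hy.pow
      have h2 : Even (X ^ 4 - 6 * a * X ^ 2 * y ^ 2 - b * X * y ^ 3) := by
        rcases Int.even_or_odd X with hX | hX
        · refine Even.sub (Even.sub (hX.pow_of_ne_zero (by norm_num)) ?_) ?_
          · exact ⟨3 * a * X ^ 2 * y ^ 2, by ring⟩
          · exact (hX.mul_left _).mul_right _
        · have h3 : Odd (b * X * y ^ 3) := (hbo.mul hX).mul hy.pow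
          have h4 : Even (6 * a * X ^ 2 * y ^ 2) := ⟨3 * a * X ^ 2 * y ^ 2, by ring⟩
          exact (hX.pow.sub_even h4).sub_odd h3
      exact h2.sub_odd h1
    · obtain ⟨t, ht⟩ := hTpar ha
      exact ⟨U + t * y, by rw [hU, ht]; ring⟩
  · intro ha
    have h1 : Even (3 * a ^ 2 * y ^ 4) := ((ha.pow_of_ne_zero (by norm_num)).mul_left _).mul_right _
    have h2 : Even (X ^ 4 - 6 * a * X ^ 2 * y ^ 2 - b * X * y ^ 3) := by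
      rcases Int.even_or_odd X with hX | hX
      · refine Even.sub (Even.sub (hX.pow_of_ne_zero (by norm_num)) ?_) ?_
        · exact ⟨3 * a * X ^ 2 * y ^ 2, by ring⟩
        · exact (hX.mul_left _).mul_right _
      · have h3 : Odd (b * X * y ^ 3) := (hbo.mul hX).mul hy.pow
        have h4 : Even (6 * a * X ^ 2 * y ^ 2) := ⟨3 * a * X ^ 2 * y ^ 2, by ring⟩
        exact (hX.pow.sub_even h4).sub_odd h3
    exact h2.sub h1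

/-- the disc `a x ≡ - b y mod 8` of an ordinary pencil -/
theorem disc_ord {a b w x y : ℤ} (h : a ^ 3 = b ^ 2 + 64 * w) (hw : Odd w) (ha : Odd a)
    (hb : b % 4 = 3) (hy : Odd y) (hxy : (8 : ℤ) ∣ a * x + b * y) :
    ∃ d c4 c6 : ℤ, Df a b x y = 256 * d ∧ Odd d ∧ C4f a b x y = 256 * (16 * c4) ∧
      C6f a b x y = 4096 * (8 * c6) ∧ Odd c4 ∧ c6 % 4 = 1 ∧ (8 : ℤ) ∣ c6 + b := by
  obtain ⟨k, hk⟩ := hxy
  have hX : a * x = 8 * k - b * y := by linarith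
  have hbo : Odd b := Int.odd_iff.mpr (by omega)
  obtain ⟨n, hn⟩ := sq_odd' hbo
  obtain ⟨m, hm⟩ := sq_odd' hy
  obtain ⟨v, hv⟩ := sq_odd' hw
  obtain ⟨u, hu⟩ := sq_odd' ha
  have eD : a ^ 4 * Df a b x y = 256 * (8 * (b * k * w * y ^ 3 - b * k ^ 3 * y -
      12 * k ^ 2 * w * y ^ 2 + 2 * k ^ 4 - 6 * w ^ 2 * y ^ 4) - b ^ 2 * w * y ^ 4) := by
    have h1 : a ^ 4 * Df a b x y = (a * x) ^ 4 - 6 * a ^ 3 * (a * x) ^ 2 * y ^ 2 -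
      8 * a ^ 3 * b * (a * x) * y ^ 3 - 3 * (a ^ 3) ^ 2 * y ^ 4 := by
      simp only [Df]; ring
    rw [h1, hX, h]; ring
  have e4 : a ^ 3 * C4f a b x y = 4096 * (6 * k ^ 2 * w * y ^ 2 - b * k * w * y ^ 3 + k ^ 4 -
      3 * w ^ 2 * y ^ 4) := by
    have h1 : a ^ 3 * C4f a b x y = (a * x) ^ 4 + 4 * b * (a * x) ^ 3 * y +
      6 * a ^ 3 * (a * x) ^ 2 * y ^ 2 + 4 * a ^ 3 * b * (a * x) * y ^ 3 -
      a ^ 3 * (3 * a ^ 3 - 4 * b ^ 2) * y ^ 4 := by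
      simp only [C4f]; ring
    rw [h1, hX, h]; ring
  have e6 : a ^ 6 * C6f a b x y = 32768 * (8 * (15 * b * k ^ 2 * w ^ 2 * y ^ 4 -
      15 * b * k ^ 4 * w * y ^ 2 + b * k ^ 6 - 9 * b * w ^ 3 * y ^ 6 + 144 * k * w ^ 3 * y ^ 5 +
      48 * k ^ 5 * w * y) + 12 * b ^ 2 * k * w ^ 2 * y ^ 5 + 20 * b ^ 2 * k ^ 3 * w * y ^ 3 -
      b ^ 3 * w ^ 2 * y ^ 6) := by
    have h1 : a ^ 6 * C6f a b x y = b * (a * x) ^ 6 + 6 * a ^ 3 * (a * x) ^ 5 * y +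
      15 * a ^ 3 * b * (a * x) ^ 4 * y ^ 2 + 20 * a ^ 3 * b ^ 2 * (a * x) ^ 3 * y ^ 3 +
      15 * (a ^ 3) ^ 2 * b * (a * x) ^ 2 * y ^ 4 +
      6 * (3 * (a ^ 3) ^ 3 - 2 * (a ^ 3) ^ 2 * b ^ 2) * (a * x) * y ^ 5 +
      (9 * (a ^ 3) ^ 3 * b - 8 * (a ^ 3) ^ 2 * b ^ 3) * y ^ 6 := by
      simp only [C6f]; ring
    rw [h1, hX, h]; ring
  obtain ⟨d, hd⟩ : (2 : ℤ) ^ 8 ∣ Df a b x y :=
    dvd_of_odd_mul 8 (j := 4) ha (by rw [eD]; exact Dvd.dvd.mul_right (by norm_num) _)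
  obtain ⟨c4, hc4⟩ : (2 : ℤ) ^ 12 ∣ C4f a b x y :=
    dvd_of_odd_mul 12 (j := 3) ha (by rw [e4]; exact Dvd.dvd.mul_right (by norm_num) _)
  obtain ⟨c6, hc6⟩ : (2 : ℤ) ^ 15 ∣ C6f a b x y :=
    dvd_of_odd_mul 15 (j := 6) ha (by rw [e6]; exact Dvd.dvd.mul_right (by norm_num) _)
  norm_num at hd hc4 hc6
  have fD : a ^ 4 * d = 8 * (b * k * w * y ^ 3 - b * k ^ 3 * y -
      12 * k ^ 2 * w * y ^ 2 + 2 * k ^ 4 - 6 * w ^ 2 * y ^ 4) - b ^ 2 * w * y ^ 4 :=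
    mul_left_cancel₀ (a := (256 : ℤ)) (by norm_num) (by rw [← eD, hd]; ring)
  have f4 : a ^ 3 * c4 = 6 * k ^ 2 * w * y ^ 2 - b * k * w * y ^ 3 + k ^ 4 -
      3 * w ^ 2 * y ^ 4 :=
    mul_left_cancel₀ (a := (4096 : ℤ)) (by norm_num) (by rw [← e4, hc4]; ring)
  have f6 : a ^ 6 * c6 = 8 * (15 * b * k ^ 2 * w ^ 2 * y ^ 4 -
      15 * b * k ^ 4 * w * y ^ 2 + b * k ^ 6 - 9 * b * w ^ 3 * y ^ 6 + 144 * k * w ^ 3 * y ^ 5 +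
      48 * k ^ 5 * w * y) + 12 * b ^ 2 * k * w ^ 2 * y ^ 5 + 20 * b ^ 2 * k ^ 3 * w * y ^ 3 -
      b ^ 3 * w ^ 2 * y ^ 6 :=
    mul_left_cancel₀ (a := (32768 : ℤ)) (by norm_num) (by rw [← e6, hc6]; ring)
  -- residue of `c6` modulo 8
  obtain ⟨T, hT⟩ : ∃ T, T = k * (w + k ^ 2) := ⟨_, rfl⟩
  have hTe : Even T := by
    rw [hT]
    rcases Int.even_or_odd k with hk' | hk'
    · exact hk'.mul_right _
    · exact (hw.add_odd hk'.pow).mul_left _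
  have h8 : (8 : ℤ) ∣ c6 + b := by
    obtain ⟨t, ht⟩ := hTe
    have g1 : a ^ 6 * (c6 + b) = 8 * (15 * b * k ^ 2 * w ^ 2 * y ^ 4 -
        15 * b * k ^ 4 * w * y ^ 2 + b * k ^ 6 - 9 * b * w ^ 3 * y ^ 6 + 144 * k * w ^ 3 * y ^ 5 +
        48 * k ^ 5 * w * y + b ^ 2 * w * y ^ 3 * t + b ^ 2 * k * w ^ 2 * y ^ 3 * m * 12
        + b ^ 2 * k * w ^ 2 * y ^ 3 + 2 * b ^ 2 * k ^ 3 * w * y ^ 3
        + b * u * (a ^ 4 + a ^ 2 + 1) - b * n * w ^ 2 * y ^ 6 - b * v * y ^ 6 -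
        b * m * (y ^ 4 + y ^ 2 + 1)) := by
      linear_combination f6 + b * (a ^ 4 + a ^ 2 + 1) * hu - b * w ^ 2 * y ^ 6 * hn -
        b * y ^ 6 * hv - b * (y ^ 4 + y ^ 2 + 1) * hm + 12 * b ^ 2 * k * w ^ 2 * y ^ 3 * hm
        - 4 * b ^ 2 * w * y ^ 3 * hT + 4 * b ^ 2 * w * y ^ 3 * ht
    have := dvd_of_odd_mul 3 (j := 6) (m := c6 + b) ha (by
      rw [g1]; exact Dvd.dvd.mul_right (by norm_num) _)
    norm_num at this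
    exact this
  refine ⟨d, c4, c6, hd, ?_, by rw [hc4]; ring, by rw [hc6]; ring, ?_, by omega, h8⟩
  · have h1 : Odd (a ^ 4 * d) := by
      rw [fD]
      have h2 : Odd (b ^ 2 * w * y ^ 4) := (hbo.pow.mul hw).mul hy.pow
      have h3 : Even (8 * (b * k * w * y ^ 3 - b * k ^ 3 * y -
        12 * k ^ 2 * w * y ^ 2 + 2 * k ^ 4 - 6 * w ^ 2 * y ^ 4)) :=
        ⟨4 * (b * k * w * y ^ 3 - b * k ^ 3 * y -
        12 * k ^ 2 * w * y ^ 2 + 2 * k ^ 4 - 6 * w ^ 2 * y ^ 4), by ring⟩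
      exact h3.sub_odd h2
    exact (Int.odd_mul.mp h1).2
  · have h1 : Odd (a ^ 3 * c4) := by
      rw [f4]
      have h2 : Odd (3 * w ^ 2 * y ^ 4) := ((by decide : Odd (3 : ℤ)).mul hw.pow).mul hy.pow
      have h3 : Even (6 * k ^ 2 * w * y ^ 2 - b * k * w * y ^ 3 + k ^ 4) := by
        have h4 : Even (6 * k ^ 2 * w * y ^ 2) := ⟨3 * k ^ 2 * w * y ^ 2, by ring⟩
        rcases Int.even_or_odd k with hk' | hk'
        · exact (h4.sub (((hk'.mul_left _).mul_right _).mul_right _)).add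
            (hk'.pow_of_ne_zero (by norm_num))
        · exact (h4.sub_odd (((hbo.mul hk').mul hw).mul hy.pow)).add_odd hk'.pow
      exact h3.sub_odd h2
    exact (Int.odd_mul.mp h1).2

end Fermat.Agent.Sw3
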