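import Mathlib
import Fermat.Agent.Sw3.Member
import Fermat.Agent.Sw3.ApTwo
import Fermat.Agent.Sw3.Model
import Fermat.Agent.Sw3.TwoDisc

set_option autoImplicit false

/-!
# The switches in the Hesse pencil, at the prime 2
-/

namespace Fermat.Agent.Sw3

open WeierstrassCurve Fermat.Agent.S52 Fermat.Agent.ZCurve

/-- `V` is a semistable curve with `V[3] = W[3]`, and `V` is close to `W` at the odd primes
dividing `B` -/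
structure Switch (W V : WeierstrassCurve ℤ) (B : ℕ) : Prop where
  disc : V.Δ ≠ 0
  ss : V.IsSemistableModel
  ctrl : ∀ q : ℕ, q.Prime → q ≠ 2 → q ∣ B → (q : ℤ) ∣ V.Δ → (q : ℤ) ∣ W.Δ
  eqap : ∀ q : ℕ, q.Prime → q ≠ 2 → q ≠ 3 → q ∣ B → W.IsGoodPrimeFor q →
    V.apOfModel q = W.apOfModel q
  cong : ∀ l : ℕ, l.Prime → l ≠ 3 → W.IsGoodPrimeFor l → V.IsGoodPrimeFor l →
    (3 : ℤ) ∣ W.apOfModel l - V.apOfModel l

variable {W : WeierstrassCurve ℤ} {B : ℕ}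

/-- curves supersingular at 2 -/
theorem switch_disc_ss (hΔ : W.Δ ≠ 0) (hss : W.IsSemistableModel) (h2 : ¬ (2 : ℤ) ∣ W.Δ)
    (hB : B ≠ 0) {a b : ℤ} (ha : W.c₄ = 16 * a) (hb : W.c₆ = 8 * b) (hb1 : b % 4 = 1) :
    ∃ (V : WeierstrassCurve ℤ) (d : ℤ), V.Δ = W.Δ * d ^ 3 ∧ Odd V.c₄ ∧ V.c₆ % 4 = 3 ∧
      (Odd a → Odd d ∧ (8 : ℤ) ∣ V.c₆ + b) ∧ (Even a → Even d) ∧ V.Δ ≠ 0 ∧
      V.IsSemistableModel ∧
      (∀ q : ℕ, q.Prime → q ≠ 2 → q ∣ B → (q : ℤ) ∣ V.Δ → (q : ℤ) ∣ W.Δ) ∧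
      (∀ q : ℕ, q.Prime → q ≠ 2 → q ≠ 3 → q ∣ B → W.IsGoodPrimeFor q →
        V.apOfModel q = W.apOfModel q) ∧
      (∀ l : ℕ, l.Prime → l ≠ 2 → l ≠ 3 → W.IsGoodPrimeFor l → V.IsGoodPrimeFor l →
        (3 : ℤ) ∣ W.apOfModel l - V.apOfModel l) := by
  obtain ⟨x, y, hcop, ⟨x', hx⟩, ⟨y', hy⟩, hloc⟩ := exists_point hΔ hB 0
  have hx4 : (4 : ℤ) ∣ x := ⟨4 * x', by linarith⟩
  have hyo : Odd y := ⟨8 * y', by linarith⟩
  obtain ⟨d, c4, c6, hD, h4, h6, hc4, hc6, hodd, heven⟩ := disc_ss (a := a) hb1 hx4 hyo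
  rw [← ha, ← hb] at hD h4 h6
  have hL3 : LocThree c4 c6 := by
    obtain ⟨hx3, hy3⟩ := hloc 3 Nat.prime_three (by norm_num) (Or.inl rfl)
    have := locThree_near (locThree_of W) (by exact_mod_cast hx3) (by exact_mod_cast hy3)
    rw [h4, h6] at this
    exact locThree_scale (by norm_num; exact this)
  have hrel : c4 ^ 3 - c6 ^ 2 = 1728 * (W.Δ * d ^ 3) := by
    have h := form_id W.c₄ W.c₆ x y
    rw [h4, h6, hD] at h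
    have r1 := W.c_relation
    have e : (4 ^ 12 : ℤ) * (c4 ^ 3 - c6 ^ 2) = 4 ^ 12 * (1728 * (W.Δ * d ^ 3)) := by
      linear_combination h - 4 ^ 12 * d ^ 3 * r1
    exact mul_left_cancel₀ (by norm_num) e
  obtain ⟨β, hβ1, hβ2⟩ := hL3
  obtain ⟨V, hV4, hV6, hVΔ⟩ := exists_model hrel hc6 hβ1 hβ2
  rw [← hV4] at h4 hc4
  rw [← hV6] at h6 hc6 hodd
  refine ⟨V, d, hVΔ, hc4, hc6, hodd, heven,
    member (B := B) (d := d) hss hΔ hcop hloc (by rw [hD]; norm_num) (by rw [h4]; norm_num)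
      (by rw [h6]; norm_num) (fun _ h => ?_)⟩
  exact (Int.not_even_iff_odd.mpr hc4) (even_iff_two_dvd.mpr h)

/-- curves ordinary at 2 -/
theorem switch_disc_ord (hΔ : W.Δ ≠ 0) (hss : W.IsSemistableModel) (h2 : ¬ (2 : ℤ) ∣ W.Δ)
    (hB : B ≠ 0) (ha : Odd W.c₄) (hb : W.c₆ % 4 = 3) :
    ∃ (V : WeierstrassCurve ℤ) (d c4 c6 : ℤ), V.Δ = W.Δ * d ^ 3 ∧ Odd d ∧ V.c₄ = 16 * c4 ∧
      V.c₆ = 8 * c6 ∧ Odd c4 ∧ c6 % 4 = 1 ∧ (8 : ℤ) ∣ c6 + W.c₆ ∧ V.Δ ≠ 0 ∧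
      V.IsSemistableModel ∧
      (∀ q : ℕ, q.Prime → q ≠ 2 → q ∣ B → (q : ℤ) ∣ V.Δ → (q : ℤ) ∣ W.Δ) ∧
      (∀ q : ℕ, q.Prime → q ≠ 2 → q ≠ 3 → q ∣ B → W.IsGoodPrimeFor q →
        V.apOfModel q = W.apOfModel q) ∧
      (∀ l : ℕ, l.Prime → l ≠ 2 → l ≠ 3 → W.IsGoodPrimeFor l → V.IsGoodPrimeFor l →
        (3 : ℤ) ∣ W.apOfModel l - V.apOfModel l) := by
  obtain ⟨x, y, hcop, ⟨x', hx⟩, ⟨y', hy⟩, hloc⟩ := exists_point hΔ hB (-W.c₆ * W.c₄)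
  have hyo : Odd y := ⟨8 * y', by linarith⟩
  have hxy : (8 : ℤ) ∣ W.c₄ * x + W.c₆ * y := by
    obtain ⟨k, hk⟩ := Int.sq_mod_four_eq_one_of_odd ha |> fun _ => (show ∃ k, W.c₄ ^ 2 = 1 + 8 * k by
      obtain ⟨m, hm⟩ := ha
      have : (2 : ℤ) ∣ m * (m + 1) := by
        rcases Int.even_or_odd m with ⟨r, hr⟩ | ⟨r, hr⟩
        · exact ⟨r * (m + 1), by rw [hr]; ring⟩
        · exact ⟨m * (r + 1), by rw [hr]; ring⟩
      obtain ⟨r, hr⟩ := this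
      exact ⟨r, by rw [hm]; linear_combination 4 * hr⟩)
    refine ⟨2 * W.c₄ * x' + 2 * W.c₆ * y' - W.c₆ * k, ?_⟩
    linear_combination W.c₄ * hx + W.c₆ * hy - W.c₆ * hk
  have hw : W.c₄ ^ 3 = W.c₆ ^ 2 + 64 * (27 * W.Δ) := by
    linear_combination -W.c_relation
  have hwo : Odd (27 * W.Δ) := by
    refine Odd.mul (by decide) ?_
    rw [← Int.not_even_iff_odd, even_iff_two_dvd]
    exact h2
  obtain ⟨d, c4, c6, hD, hd, h4, h6, hc4, hc6, hc8⟩ := disc_ord hw hwo ha hb hyo hxy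
  have hL3 : LocThree (16 * c4) (8 * c6) := by
    obtain ⟨hx3, hy3⟩ := hloc 3 Nat.prime_three (by norm_num) (Or.inl rfl)
    have := locThree_near (locThree_of W) (by exact_mod_cast hx3) (by exact_mod_cast hy3)
    rw [h4, h6] at this
    exact locThree_scale (by norm_num; exact this)
  have hrel : (16 * c4) ^ 3 - (8 * c6) ^ 2 = 1728 * (W.Δ * d ^ 3) := by
    have h := form_id W.c₄ W.c₆ x y
    rw [h4, h6, hD] at h
    have r1 := W.c_relation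
    have e : (4 ^ 12 : ℤ) * ((16 * c4) ^ 3 - (8 * c6) ^ 2) =
        4 ^ 12 * (1728 * (W.Δ * d ^ 3)) := by
      linear_combination h - 4 ^ 12 * d ^ 3 * r1
    exact mul_left_cancel₀ (by norm_num) e
  obtain ⟨β, hβ1, hβ2⟩ := hL3
  obtain ⟨V, hV4, hV6, hVΔ⟩ := exists_model_ss hrel hc6 hβ1 hβ2
  refine ⟨V, d, c4, c6, hVΔ, hd, hV4, hV6, hc4, hc6, hc8,
    member (B := B) (d := d) hss hΔ hcop hloc (by rw [hD]; norm_num)
      (by rw [h4, hV4]; norm_num)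
      (by rw [h6, hV6]; norm_num) (fun h _ => ?_)⟩
  rw [hVΔ] at h
  rcases Int.prime_two.dvd_or_dvd h with h' | h'
  · exact h2 h'
  · have h3 := Int.prime_two.dvd_of_dvd_pow h'
    exact (Int.not_even_iff_odd.mpr hd) (even_iff_two_dvd.mpr h3)

private lemma not_two_dvd {d : ℤ} (h2 : ¬ (2 : ℤ) ∣ W.Δ) (hd : Odd d) :
    ¬ (2 : ℤ) ∣ W.Δ * d ^ 3 := by
  intro h
  rcases Int.prime_two.dvd_or_dvd h with h' | h'
  · exact h2 h'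
  · have h3 := Int.prime_two.dvd_of_dvd_pow h'
    exact (Int.not_even_iff_odd.mpr hd) (even_iff_two_dvd.mpr h3)

/-- `a₂ = 0`: the switch to multiplicative reduction at 2 -/
theorem switch_zero (hΔ : W.Δ ≠ 0) (hss : W.IsSemistableModel) (h2 : ¬ (2 : ℤ) ∣ W.Δ)
    (h : W.apOfModel 2 = 0) (hB : B ≠ 0) :
    ∃ V : WeierstrassCurve ℤ, Switch W V B ∧ (2 : ℤ) ∣ V.Δ := by
  rcases ap_two_cases W h2 with ⟨-, -, h'⟩ | ⟨-, -, h'⟩ | ⟨a, b, ha, hb, hb1, h'⟩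
  · omega
  · omega
  · rcases h' with ⟨hae, -⟩ | ⟨-, -, h'⟩ | ⟨-, -, h'⟩
    · obtain ⟨V, d, hVΔ, -, -, -, hev, v1, v2, v3, v4, v5⟩ :=
        switch_disc_ss (B := B) hΔ hss h2 hB ha hb hb1
      have hd : (2 : ℤ) ∣ V.Δ := by
        rw [hVΔ]
        exact Dvd.dvd.mul_left ((even_iff_two_dvd.mp (hev hae)).trans
          (dvd_pow_self _ (by norm_num))) _
      refine ⟨V, ⟨v1, v2, v3, v4, fun l hl hl3 hg hg' => ?_⟩, hd⟩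
      have hl2 : l ≠ 2 := by
        rintro rfl; exact hg' (by exact_mod_cast hd)
      exact v5 l hl hl2 hl3 hg hg'
    · omega
    · omega

/-- `a₂ = ±2`: the switch to ordinary curves -/
theorem switch_ss (hΔ : W.Δ ≠ 0) (hss : W.IsSemistableModel) (h2 : ¬ (2 : ℤ) ∣ W.Δ)
    (h : W.apOfModel 2 = 2 ∨ W.apOfModel 2 = -2) (hB : B ≠ 0) :
    ∃ V : WeierstrassCurve ℤ, Switch W V B ∧ ¬ (2 : ℤ) ∣ V.Δ ∧
      2 * V.apOfModel 2 = -W.apOfModel 2 := by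
  rcases ap_two_cases W h2 with ⟨-, -, h'⟩ | ⟨-, -, h'⟩ | ⟨a, b, ha, hb, hb1, h'⟩
  · omega
  · omega
  · have key : Odd a ∧ ((b % 8 = 5 ∧ W.apOfModel 2 = -2) ∨ (b % 8 = 1 ∧ W.apOfModel 2 = 2)) := by
      rcases h' with ⟨-, h'⟩ | ⟨h1, h3, h'⟩ | ⟨h1, h3, h'⟩
      · omega
      · exact ⟨h1, Or.inl ⟨h3, h'⟩⟩
      · exact ⟨h1, Or.inr ⟨h3, h'⟩⟩
    obtain ⟨hao, hab⟩ := key
    obtain ⟨V, d, hVΔ, hc4, hc6, hod, -, v1, v2, v3, v4, v5⟩ :=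
      switch_disc_ss (B := B) hΔ hss h2 hB ha hb hb1
    obtain ⟨hd, h8⟩ := hod hao
    have hV2 : ¬ (2 : ℤ) ∣ V.Δ := by
      rw [hVΔ]; exact not_two_dvd h2 hd
    have hap : 2 * V.apOfModel 2 = -W.apOfModel 2 := by
      rcases ap_two_cases V hV2 with ⟨-, k1, k2⟩ | ⟨-, k1, k2⟩ | ⟨a', b', k1, -⟩
      · omega
      · omega
      · exfalso
        rw [k1] at hc4
        exact (Int.not_odd_iff_even.mpr ⟨8 * a', by ring⟩) hc4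
    refine ⟨V, ⟨v1, v2, v3, v4, fun l hl hl3 hg hg' => ?_⟩, hV2, hap⟩
    by_cases hl2 : l = 2
    · subst hl2
      omega
    · exact v5 l hl hl2 hl3 hg hg'

/-- `a₂ = ±1`: the switch to supersingular curves -/
theorem switch_ord (hΔ : W.Δ ≠ 0) (hss : W.IsSemistableModel) (h2 : ¬ (2 : ℤ) ∣ W.Δ)
    (h : W.apOfModel 2 = 1 ∨ W.apOfModel 2 = -1) (hB : B ≠ 0) :
    ∃ V : WeierstrassCurve ℤ, Switch W V B ∧ ¬ (2 : ℤ) ∣ V.Δ ∧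
      V.apOfModel 2 = -2 * W.apOfModel 2 := by
  have key : Odd W.c₄ ∧ ((W.c₆ % 8 = 7 ∧ W.apOfModel 2 = -1) ∨
      (W.c₆ % 8 = 3 ∧ W.apOfModel 2 = 1)) := by
    rcases ap_two_cases W h2 with ⟨h1, h3, h'⟩ | ⟨h1, h3, h'⟩ | ⟨a, b, ha, hb, hb1, h'⟩
    · exact ⟨h1, Or.inl ⟨h3, h'⟩⟩
    · exact ⟨h1, Or.inr ⟨h3, h'⟩⟩
    · omega
  obtain ⟨hao, hab⟩ := key
  obtain ⟨V, d, c4, c6, hVΔ, hd, hV4, hV6, hc4, hc6, h8, v1, v2, v3, v4, v5⟩ :=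
    switch_disc_ord (B := B) hΔ hss h2 hB hao (by omega)
  have hV2 : ¬ (2 : ℤ) ∣ V.Δ := by
    rw [hVΔ]; exact not_two_dvd h2 hd
  have hap : V.apOfModel 2 = -2 * W.apOfModel 2 := by
    rcases ap_two_cases V hV2 with ⟨k, -, -⟩ | ⟨k, -, -⟩ | ⟨a', b', k1, k2, k3, k4⟩
    · exfalso
      rw [hV4] at k
      exact (Int.not_odd_iff_even.mpr ⟨8 * c4, by ring⟩) k
    · exfalso
      rw [hV4] at k
      exact (Int.not_odd_iff_even.mpr ⟨8 * c4, by ring⟩) k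
    · have e1 : a' = c4 := by linarith
      have e2 : b' = c6 := by linarith
      subst e1 e2
      rcases k4 with ⟨k4, -⟩ | ⟨-, k4, k5⟩ | ⟨-, k4, k5⟩
      · exact absurd hc4 (Int.not_odd_iff_even.mpr k4)
      · omega
      · omega
  refine ⟨V, ⟨v1, v2, v3, v4, fun l hl hl3 hg hg' => ?_⟩, hV2, hap⟩
  by_cases hl2 : l = 2
  · subst hl2
    omega
  · exact v5 l hl hl2 hl3 hg hg'

end Fermat.Agent.Sw3
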