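import Mathlib
import Fermat.Agent.Sw3.Main
import Fermat.Agent.Sw3.Irr
import Fermat.Agent.ModAll.Cor
import Fermat.Agent.Final.Wire
import Fermat.Agent.S51

set_option autoImplicit false

/-!
# Modularity of all semistable curves, from modularity lifting
-/

namespace Fermat.Agent.Sw3

open WeierstrassCurve Fermat.Agent.Final

/-- Modularity with the exact level. -/
def Modu (W : WeierstrassCurve ℤ) : Prop := ∃ N : ℕ, Squarefree N ∧
  (∀ q : ℕ, q.Prime → (q ∣ N ↔ (q : ℤ) ∣ W.Δ)) ∧ W.IsModularModelOfLevel N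

/-- Modularity lifting at `p` for all semistable curves. -/
def LiftAll (p : ℕ) : Prop := ∀ W : WeierstrassCurve ℤ, W.Δ ≠ 0 → W.IsSemistableModel →
  W.ModRepIsIrreducible p → ∀ N₀ : ℕ, Squarefree N₀ → (p ∣ N₀ → (p : ℤ) ∣ W.Δ) →
    W.IsResiduallyModularOfLevel p N₀ → Modu W

/-- The switch at `5` from supersingular to multiplicative reduction at `2`. -/
def SwA : Prop := ∀ W : WeierstrassCurve ℤ, W.Δ ≠ 0 → W.IsSemistableModel →
  ¬ (2 : ℤ) ∣ W.Δ → (W.apOfModel 2 = 2 ∨ W.apOfModel 2 = -2) → ∀ B : ℕ, B ≠ 0 →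
    ∃ V : WeierstrassCurve ℤ, V.Δ ≠ 0 ∧ (2 : ℤ) ∣ V.Δ ∧
      (∀ q : ℕ, q.Prime → q ∣ B → (q : ℤ) ∣ V.Δ → (q : ℤ) ∣ W.Δ ∨ q = 2) ∧
      V.IsSemistableModel ∧
      ∀ ℓ : ℕ, ℓ.Prime → W.IsGoodPrimeFor ℓ → V.IsGoodPrimeFor ℓ → ℓ ≠ 5 →
        (5 : ℤ) ∣ (V.apOfModel ℓ - W.apOfModel ℓ)

section

variable {W V : WeierstrassCurve ℤ} {p : ℕ}

/-- transfer of modularity through a congruence -/
theorem modu_of_congr (hp : p.Prime) (H : LiftAll p) (hΔ : W.Δ ≠ 0)
    (hss : W.IsSemistableModel) (hirr : W.ModRepIsIrreducible p) (hV : Modu V)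
    (hctrl : (p : ℤ) ∣ V.Δ → (p : ℤ) ∣ W.Δ)
    (hcong : ∀ l : ℕ, l.Prime → l ≠ p → W.IsGoodPrimeFor l → V.IsGoodPrimeFor l →
      (p : ℤ) ∣ W.apOfModel l - V.apOfModel l) : Modu W := by
  obtain ⟨N, h1, h2, h3⟩ := hV
  refine H W hΔ hss hirr N h1 (fun h => hctrl ((h2 p hp).mp h)) ?_
  refine residual_of_modular hp (fun ℓ hℓ h => (h2 ℓ hℓ).mpr h) h3 ?_
  intro ℓ hℓ hg hg' hne
  have := hcong ℓ hℓ hne hg hg'
  rw [← dvd_neg, neg_sub] at this
  exact this

theorem evenLevel_of {N : ℕ} (hW : SS2 W) (h1 : Squarefree N)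
    (h2 : ∀ q : ℕ, q.Prime → (q ∣ N ↔ (q : ℤ) ∣ W.Δ)) : EvenLevel N :=
  ⟨h1, (h2 2 Nat.prime_two).mpr (by exact_mod_cast hW.two)⟩

theorem lifting_of_all (H : LiftAll p) : Lifting p := by
  intro W hW hirr N₀ hN₀ hp hres
  obtain ⟨N, h1, h2, h3⟩ := H W hW.Δ0 hW.ss hirr N₀ hN₀.1 hp hres
  exact ⟨N, evenLevel_of hW h1 h2, fun ℓ hℓ h => (h2 ℓ hℓ).mpr h,
    fun q hq h => Or.inr ((h2 q hq).mp h), h3⟩

theorem lifting3_of_all (H : LiftAll 3) : Lifting3 :=
  fun W hW hirr _ N₀ hN₀ hp hres => lifting_of_all H W hW hirr N₀ hN₀ (by exact_mod_cast hp) hres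

/-- Case (I): multiplicative reduction at 2. -/
theorem modu_even (hZ : ZThm3) (hS : Switch2) (H3 : LiftAll 3) (H5 : LiftAll 5) (hW : SS2 W) :
    Modu W := by
  by_cases h5 : W.ModRepIsIrreducible 5
  · obtain ⟨N, hN, hbad, hctrl, hmod⟩ := modular_of hZ (lifting3_of_all H3) (lifting_of_all H5) hS
      W hW h5 5 (by norm_num)
    refine H5 W hW.Δ0 hW.ss h5 N hN.1 (fun h => hctrl 5 Nat.prime_five dvd_rfl h) ?_
    exact residual_of_modular Nat.prime_five hbad hmod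
      (fun ℓ _ _ _ _ => by rw [sub_self]; exact dvd_zero _)
  · have h3 : W.ModRepIsIrreducible 3 := (S51.result W hW.Δ0 hW.ss).resolve_right h5
    obtain ⟨N, hN, hctrl, hres⟩ := hZ W hW h3 3 (by norm_num)
    exact H3 W hW.Δ0 hW.ss h3 N hN.1 (fun h => hctrl 3 Nat.prime_three dvd_rfl h) hres

/-- Supersingular at 2, `a₂ = ±2`, irreducible modulo 5. -/
theorem modu_five (hZ : ZThm3) (hS : Switch2) (H3 : LiftAll 3) (H5 : LiftAll 5) (HA : SwA) (hΔ : W.Δ ≠ 0)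
    (hss : W.IsSemistableModel) (h2 : ¬ (2 : ℤ) ∣ W.Δ)
    (ha : W.apOfModel 2 = 2 ∨ W.apOfModel 2 = -2) (hirr : W.ModRepIsIrreducible 5) : Modu W := by
  obtain ⟨V, hΔ', h2', hctrl, hss', hcong⟩ := HA W hΔ hss h2 ha 5 (by norm_num)
  exact modu_of_congr Nat.prime_five H5 hΔ hss hirr (modu_even hZ hS H3 H5 ⟨hΔ', hss', h2'⟩)
    (fun h => by
      have := hctrl 5 Nat.prime_five dvd_rfl (by exact_mod_cast h)
      exact_mod_cast this.resolve_right (by norm_num))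
    (fun l hl hl5 hg hg' => by
      have := hcong l hl hg hg' hl5
      rw [← dvd_neg, neg_sub] at this
      exact_mod_cast this)

/-- `a₂ ≠ -2` forces irreducibility modulo 5. -/
theorem irr_five (hΔ : W.Δ ≠ 0) (hss : W.IsSemistableModel) (h2 : ¬ (2 : ℤ) ∣ W.Δ)
    (ha : W.apOfModel 2 = 0 ∨ W.apOfModel 2 = 1 ∨ W.apOfModel 2 = -1) :
    W.ModRepIsIrreducible 5 := by
  refine irr_five_of_two W hΔ hss (by exact_mod_cast h2) ?_
  omega

/-- Ordinary at 2 with `a₂ = ±1`, irreducible modulo 3. -/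
theorem modu_ord (hZ : ZThm3) (hS : Switch2) (H3 : LiftAll 3) (H5 : LiftAll 5) (HA : SwA) (hΔ : W.Δ ≠ 0)
    (hss : W.IsSemistableModel) (h2 : ¬ (2 : ℤ) ∣ W.Δ)
    (ha : W.apOfModel 2 = 1 ∨ W.apOfModel 2 = -1) (hirr : W.ModRepIsIrreducible 3) : Modu W := by
  have h5 := irr_five hΔ hss h2 (Or.inr ha)
  obtain ⟨l, hl, hl6, hl5, hg, hn⟩ := irr_exists W hΔ Nat.prime_five (by norm_num) h5
    (m := 6) (by norm_num)
  have hl2 : l ≠ 2 := by rintro rfl; exact hl6 (by norm_num)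
  have hl3 : l ≠ 3 := by rintro rfl; exact hl6 (by norm_num)
  obtain ⟨V, hV, h2', ha'⟩ := switch_ord (B := 3 * l) hΔ hss h2 ha
    (mul_ne_zero (by norm_num) hl.ne_zero)
  have hgV : V.IsGoodPrimeFor l := fun hd =>
    hg (hV.ctrl l hl hl2 (Dvd.intro_left _ rfl) hd)
  have e := hV.eqap l hl hl2 hl3 (Dvd.intro_left _ rfl) hg
  have h5' : V.ModRepIsIrreducible 5 :=
    irr_of V hV.disc hV.ss Nat.prime_five (by norm_num) hl hl5 hgV (by rw [e]; exact hn)
  refine modu_of_congr Nat.prime_three H3 hΔ hss hirr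
    (modu_five hZ hS H3 H5 HA hV.disc hV.ss h2' (by omega) h5')
    (fun h => by
      have := hV.ctrl 3 Nat.prime_three (by norm_num) (Dvd.intro _ rfl)
      exact_mod_cast this (by exact_mod_cast h))
    (fun l hl hl3 hg hg' => by exact_mod_cast hV.cong l hl hl3 hg hg')

/-- Case (II): good reduction at 2, irreducible modulo 3. -/
theorem modu_three (hZ : ZThm3) (hS : Switch2) (H3 : LiftAll 3) (H5 : LiftAll 5) (HA : SwA) (hΔ : W.Δ ≠ 0)
    (hss : W.IsSemistableModel) (h2 : ¬ (2 : ℤ) ∣ W.Δ) (hirr : W.ModRepIsIrreducible 3) :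
    Modu W := by
  have hc : W.apOfModel 2 = 0 ∨ (W.apOfModel 2 = 1 ∨ W.apOfModel 2 = -1) ∨
      (W.apOfModel 2 = 2 ∨ W.apOfModel 2 = -2) := by
    rcases ap_two_cases W h2 with ⟨-, -, h⟩ | ⟨-, -, h⟩ | ⟨a, b, -, -, -, h⟩
    · omega
    · omega
    · rcases h with ⟨-, h⟩ | ⟨-, -, h⟩ | ⟨-, -, h⟩ <;> omega
  have key : ∀ V : WeierstrassCurve ℤ, Switch W V 3 → Modu V → Modu W := by
    intro V hV hm
    exact modu_of_congr Nat.prime_three H3 hΔ hss hirr hm
      (fun h => by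
        have := hV.ctrl 3 Nat.prime_three (by norm_num) dvd_rfl
        exact_mod_cast this (by exact_mod_cast h))
      (fun l hl hl3 hg hg' => by exact_mod_cast hV.cong l hl hl3 hg hg')
  rcases hc with h | h | h
  · obtain ⟨V, hV, h2'⟩ := switch_zero (B := 3) hΔ hss h2 h (by norm_num)
    exact key V hV (modu_even hZ hS H3 H5 ⟨hV.disc, hV.ss, h2'⟩)
  · exact modu_ord hZ hS H3 H5 HA hΔ hss h2 h hirr
  · obtain ⟨V, hV, h2', ha'⟩ := switch_ss (B := 3) hΔ hss h2 h (by norm_num)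
    refine key V hV (modu_ord hZ hS H3 H5 HA hV.disc hV.ss h2' (by omega) ?_)
    exact irr_transfer hΔ hV.disc hV.ss Nat.prime_three (by norm_num) hirr one_ne_zero
      (fun l hl _ hl3 hg hg' => by exact_mod_cast hV.cong l hl hl3 hg hg')

/-- **Modularity of all semistable curves**, from modularity lifting at 3 and 5 and the switch at 5
for supersingular curves. -/
theorem modAll_of (hZ : ZThm3) (hS : Switch2) (H3 : LiftAll 3) (H5 : LiftAll 5) (HA : SwA) : ModAll.ModAll := by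
  intro W hΔ hss
  by_cases h2 : (2 : ℤ) ∣ W.Δ
  · exact modu_even hZ hS H3 H5 ⟨hΔ, hss, h2⟩
  · by_cases h3 : W.ModRepIsIrreducible 3
    · exact modu_three hZ hS H3 H5 HA hΔ hss h2 h3
    · have h5 : W.ModRepIsIrreducible 5 := (S51.result W hΔ hss).resolve_left h3
      obtain ⟨V, hΔ', -, hv2, hctrl, hss', hirr', hcong⟩ :=
        S52A.switch_even W hΔ hss 5 (by norm_num)
      have h2' : ¬ (2 : ℤ) ∣ V.Δ := by
        intro hd
        have e0 : padicValInt 2 W.Δ = 0 := padicValInt.eq_zero_of_not_dvd (by exact_mod_cast h2)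
        rw [e0] at hv2
        have := (padicValInt_dvd_iff (p := 2) 1 V.Δ).mp (by rw [pow_one]; exact_mod_cast hd)
        rcases this with h | h
        · exact hΔ' h
        · omega
      exact modu_of_congr Nat.prime_five H5 hΔ hss h5
        (modu_three hZ hS H3 H5 HA hΔ' hss' h2' hirr')
        (fun h => hctrl 5 Nat.prime_five dvd_rfl (by exact_mod_cast h))
        (fun l hl hl5 hg hg' => by
          have := hcong l hl hg hg' hl5
          rw [← dvd_neg, neg_sub] at this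
          exact_mod_cast this)

end

end Fermat.Agent.Sw3
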